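/-
Program E (S14), interface between (E-T) [translation, helper8/helper11/helper15] and
(E-C)+(E-S) [class field theory + Stickelberger].

`NoOmegaInvExt p` is the purely number-theoretic statement: there is NO cyclic extension `L` of
degree `p` of `K = ℚ(ζ_p)`, Galois over `ℚ`, unramified at every finite prime (and in which the
primes over `p` split completely), such that `Gal(L/ℚ)` acts on `Gal(L/K)` by conjugation through
the INVERSE of the mod-`p` cyclotomic character.

(E-T) proves `NoOmegaInvExt p → ExtCitation.ExtVanishingCts p`;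
(E-C)+(E-S) prove `3 ≤ p → NoOmegaInvExt p`.
-/
import Mathlib

set_option autoImplicit false

namespace Fermat.Agent.S14.Interface

open NumberField
open scoped Pointwise

/-- There is no everywhere unramified cyclic degree-`p` extension `L/K`, `K = ℚ(ζ_p)`, Galois over
`ℚ`, on which `Gal(L/ℚ)` acts (by conjugation on `Gal(L/K)`) through `χ⁻¹`, `χ` the mod-`p`
cyclotomic character.  The conjugation hypothesis is written without inverses:
if `δ ζ = ζ ^ k` on `μ_p` then `(δ σ δ⁻¹) ^ k = σ`. -/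
def NoOmegaInvExt (p : ℕ) : Prop :=
  ∀ (K L : Type) [Field K] [Field L] [NumberField K] [NumberField L] [Algebra K L]
    [IsCyclotomicExtension {p} ℚ K] [IsGalois K L] [IsGalois ℚ L],
    Module.finrank K L = p →
    -- unramified at every finite prime
    (∀ P : Ideal (𝓞 L), P.IsPrime → P ≠ ⊥ → P.inertia (L ≃ₐ[K] L) = ⊥) →
    -- the primes over `p` split completely in `L/K`
    (∀ P : Ideal (𝓞 L), P.IsPrime → (p : 𝓞 L) ∈ P → MulAction.stabilizer (L ≃ₐ[K] L) P = ⊥) →
    -- `L/ℚ` is unramified outside `p`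
    (∀ P : Ideal (𝓞 L), P.IsPrime → P ≠ ⊥ → (p : 𝓞 L) ∉ P → P.inertia (L ≃ₐ[ℚ] L) = ⊥) →
    -- `Gal(L/ℚ)` acts on `Gal(L/K)` through `χ⁻¹`
    (∀ (δ : L ≃ₐ[ℚ] L) (σ : L ≃ₐ[K] L) (k : ℕ),
        (∀ ζ : L, ζ ^ p = 1 → δ ζ = ζ ^ k) →
        (δ * σ.restrictScalars ℚ * δ⁻¹) ^ k = σ.restrictScalars ℚ) →
    False

end Fermat.Agent.S14.Interface
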