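/-
Program E (S14), GLUE (helper15): `Interface.NoOmegaInvExt p` from the three end theorems of
(E-C) and (E-S), stated here as hypothesis shapes:

* `ARTHyp p`   : Artin map `ClassGroup (𝓞 K) →* Gal(L/K)` with `Art [q] = Frob_q` for an unramified
                 cyclic extension `L/K` of degree `p` of `K = ℚ(ζ_p)`;
* `NSHyp`      : in a nontrivial Galois extension of number fields not all degree-one primes split
                 completely;
* `STICKHyp p` : Stickelberger consumer: a `χ⁻¹`-equivariant additive function on ideals of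
                 `ℤ[ζ_p]` killing principal ideals kills every degree-one prime.
-/
import Mathlib
import Fermat.Agent.S14.Interface

set_option autoImplicit false

namespace Fermat.Agent.S14.ArtinGlue

open NumberField
open scoped Pointwise

/-! ### Semilinear conjugation of Frobenius elements -/

section Conj

variable {K L : Type} [Field K] [Field L] [NumberField K] [NumberField L] [Algebra K L]
  [Normal ℚ K]

/-- `δ (algebraMap x) = algebraMap (σ x)` where `σ` is the restriction of `δ` to `K`. -/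
theorem apply_algebraMap (δ : L ≃ₐ[ℚ] L) (x : K) :
    δ (algebraMap K L x) = algebraMap K L (δ.restrictNormal K x) :=
  (AlgEquiv.restrictNormal_commutes δ K x).symm

/-- Conjugation of `g ∈ Gal(L/K)` by `δ ∈ Gal(L/ℚ)`, as an element of `Gal(L/K)`. -/
noncomputable def conjK (δ : L ≃ₐ[ℚ] L) (g : L ≃ₐ[K] L) : L ≃ₐ[K] L :=
  AlgEquiv.ofRingEquiv
    (f := (δ.symm.toRingEquiv.trans g.toRingEquiv).trans δ.toRingEquiv) (by
      intro x
      show δ (g (δ.symm (algebraMap K L x))) = algebraMap K L x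
      rw [apply_algebraMap δ.symm x, g.commutes, ← apply_algebraMap δ.symm x,
        AlgEquiv.apply_symm_apply])

@[simp] theorem conjK_apply (δ : L ≃ₐ[ℚ] L) (g : L ≃ₐ[K] L) (x : L) :
    conjK δ g x = δ (g (δ.symm x)) := rfl

theorem conjK_restrictScalars (δ : L ≃ₐ[ℚ] L) (g : L ≃ₐ[K] L) :
    (conjK δ g).restrictScalars ℚ = δ * g.restrictScalars ℚ * δ⁻¹ := by
  ext x
  rfl

theorem conjK_pow (δ : L ≃ₐ[ℚ] L) (g : L ≃ₐ[K] L) (k : ℕ) :
    (conjK δ g) ^ k = conjK δ (g ^ k) := by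
  induction k with
  | zero =>
    ext x
    simp
  | succ k ih =>
    rw [pow_succ, pow_succ, ih]
    ext x
    simp [AlgEquiv.mul_apply]

variable [IsGalois K L] [IsGalois ℚ L]

/-- Compatibility of the canonical actions on rings of integers with `algebraMap`. -/
theorem smul_algebraMap_int (δ : L ≃ₐ[ℚ] L) (x : 𝓞 K) :
    δ • (algebraMap (𝓞 K) (𝓞 L) x) = algebraMap (𝓞 K) (𝓞 L) ((δ.restrictNormal K) • x) := by
  apply RingOfIntegers.ext
  show δ (algebraMap K L (x : K)) = algebraMap K L ((δ.restrictNormal K) (x : K))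
  exact apply_algebraMap δ (x : K)

theorem restrictNormal_inv (δ : L ≃ₐ[ℚ] L) :
    (δ⁻¹).restrictNormal K = (δ.restrictNormal K)⁻¹ := by
  have := map_inv (AlgEquiv.restrictNormalHom (F := ℚ) (K₁ := L) K) δ
  exact this

/-- The prime below `δ • P` is `σ • (prime below P)`. -/
theorem under_smul (δ : L ≃ₐ[ℚ] L) (P : Ideal (𝓞 L)) :
    (δ • P).under (𝓞 K) = (δ.restrictNormal K) • (P.under (𝓞 K)) := by
  ext x
  rw [Ideal.under_def, Ideal.mem_comap, Ideal.mem_pointwise_smul_iff_inv_smul_mem,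
    Ideal.mem_pointwise_smul_iff_inv_smul_mem, Ideal.under_def, Ideal.mem_comap,
    smul_algebraMap_int, restrictNormal_inv]

/-- The residue fields of `q` and `σ • q` have the same cardinality. -/
theorem card_quotient_smul (σ : K ≃ₐ[ℚ] K) (q : Ideal (𝓞 K)) :
    Nat.card (𝓞 K ⧸ σ • q) = Nat.card (𝓞 K ⧸ q) := by
  have e : 𝓞 K ⧸ q ≃+* 𝓞 K ⧸ σ • q :=
    Ideal.quotientEquiv q (σ • q) (MulSemiringAction.toRingEquiv (K ≃ₐ[ℚ] K) (𝓞 K) σ)
      (Ideal.pointwise_smul_def q)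
  exact (Nat.card_congr e.toEquiv).symm

/-- Semilinear conjugation: if `g` is a Frobenius at `P` (for `L/K`), then `δ g δ⁻¹` is a
Frobenius at `δ • P`, for every `δ ∈ Gal(L/ℚ)`. -/
theorem isArithFrobAt_conjK {g : L ≃ₐ[K] L} {P : Ideal (𝓞 L)}
    (h : IsArithFrobAt (𝓞 K) g P) (δ : L ≃ₐ[ℚ] L) :
    IsArithFrobAt (𝓞 K) (conjK δ g) (δ • P) := by
  intro x
  have hcard : Nat.card (𝓞 K ⧸ (δ • P).under (𝓞 K)) = Nat.card (𝓞 K ⧸ P.under (𝓞 K)) := by
    rw [under_smul, card_quotient_smul]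
  rw [hcard, Ideal.mem_pointwise_smul_iff_inv_smul_mem]
  have hx := h (δ⁻¹ • x)
  convert hx using 1
  rw [smul_sub, smul_pow']
  congr 1
  apply RingOfIntegers.ext
  show δ⁻¹ (δ (g (δ.symm (x : L)))) = g (δ⁻¹ (x : L))
  rw [AlgEquiv.aut_inv, AlgEquiv.symm_apply_apply]

end Conj

/-! ### The three hypothesis shapes -/

/-- (ART) An Artin map on the class group with the Frobenius property at every prime. -/
def ArtinShape (K L : Type) [Field K] [Field L] [NumberField K] [NumberField L] [Algebra K L]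
    [IsGalois K L] : Prop :=
  ∃ Art : ClassGroup (𝓞 K) →* (L ≃ₐ[K] L),
    ∀ (q : Ideal (𝓞 K)) (hq : q ∈ nonZeroDivisors (Ideal (𝓞 K))) (P : Ideal (𝓞 L)),
      q.IsPrime → P.IsPrime → P.under (𝓞 K) = q →
        IsArithFrobAt (𝓞 K) (Art (ClassGroup.mk0 ⟨q, hq⟩)) P

/-- (NS) Not all degree-one primes (prime to `m`) split completely. -/
def NotAllSplitShape (K L : Type) [Field K] [Field L] [NumberField K] [NumberField L]
    [Algebra K L] [IsGalois K L] : Prop :=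
  ∀ m : ℕ, m ≠ 0 → ∃ (q : Ideal (𝓞 K)) (P : Ideal (𝓞 L)) (σ : L ≃ₐ[K] L),
    q.IsPrime ∧ (Ideal.absNorm q).Prime ∧ ¬ (Ideal.absNorm q ∣ m) ∧ P.IsPrime ∧
      P.under (𝓞 K) = q ∧ IsArithFrobAt (𝓞 K) σ P ∧ σ ≠ 1

/-- (STICK) The Stickelberger consumer shape. -/
def StickShape (p : ℕ) (K : Type) [Field K] [NumberField K] : Prop :=
  ∀ f : Ideal (𝓞 K) → ZMod p,
    (∀ I J : Ideal (𝓞 K), I ≠ ⊥ → J ≠ ⊥ → f (I * J) = f I + f J) →
    (∀ a : 𝓞 K, a ≠ 0 → f (Ideal.span {a}) = 0) →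
    (∀ (σ : K ≃ₐ[ℚ] K) (k : ℕ), (∀ ζ : K, ζ ^ p = 1 → σ ζ = ζ ^ k) →
      ∀ q : Ideal (𝓞 K), q.IsPrime → q ≠ ⊥ → (k : ZMod p) * f (σ • q) = f q) →
    ∀ q : Ideal (𝓞 K), q.IsPrime → (Ideal.absNorm q).Prime → Ideal.absNorm q ≠ p → f q = 0

/-- (ART) as the end theorem of (E-C). -/
def ARTHyp (p : ℕ) : Prop :=
  ∀ (K L : Type) [Field K] [Field L] [NumberField K] [NumberField L] [Algebra K L]
    [IsCyclotomicExtension {p} ℚ K] [IsGalois K L],
    Module.finrank K L = p →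
    (∀ P : Ideal (𝓞 L), P.IsPrime → P ≠ ⊥ → P.inertia (L ≃ₐ[K] L) = ⊥) →
    ArtinShape K L

/-- (NS) as the end theorem of (E-C1). -/
def NSHyp : Prop :=
  ∀ (K L : Type) [Field K] [Field L] [NumberField K] [NumberField L] [Algebra K L]
    [IsGalois K L], Module.finrank K L ≠ 1 → NotAllSplitShape K L

/-- (STICK) as the end theorem of (E-S). -/
def STICKHyp (p : ℕ) : Prop :=
  ∀ (K : Type) [Field K] [NumberField K] [IsCyclotomicExtension {p} ℚ K], StickShape p K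

/-! ### The glue -/

section Main

variable {p : ℕ} [hp : Fact p.Prime]
variable {K L : Type} [Field K] [Field L] [NumberField K] [NumberField L] [Algebra K L]
  [IsGalois K L]

theorem mem_nonZeroDivisors_of_ne_bot {I : Ideal (𝓞 K)} (hI : I ≠ ⊥) :
    I ∈ nonZeroDivisors (Ideal (𝓞 K)) :=
  mem_nonZeroDivisors_iff_ne_zero.mpr hI

/-- An isomorphism `Gal(L/K) ≃* Multiplicative (ZMod p)` when `[L : K] = p`. -/
noncomputable def galEquiv (hfin : Module.finrank K L = p) :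
    (L ≃ₐ[K] L) ≃* Multiplicative (ZMod p) :=
  have hcard : Nat.card (L ≃ₐ[K] L) = p := by
    rw [IsGalois.card_aut_eq_finrank K L, hfin]
  have hcyc : IsCyclic (L ≃ₐ[K] L) := isCyclic_of_prime_card hcard
  (zmodCyclicMulEquiv hcyc).symm.trans
    (AddEquiv.toMultiplicative (ZMod.ringEquivCongr hcard).toAddEquiv)

/-- The function on ideals attached to an Artin map. -/
noncomputable def fOf (hfin : Module.finrank K L = p) (Art : ClassGroup (𝓞 K) →* (L ≃ₐ[K] L))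
    (I : Ideal (𝓞 K)) : ZMod p :=
  open scoped Classical in
  if h : I ∈ nonZeroDivisors (Ideal (𝓞 K)) then
    Multiplicative.toAdd (galEquiv hfin (Art (ClassGroup.mk0 ⟨I, h⟩)))
  else 0

theorem fOf_of_mem (hfin : Module.finrank K L = p) (Art : ClassGroup (𝓞 K) →* (L ≃ₐ[K] L))
    {I : Ideal (𝓞 K)} (h : I ∈ nonZeroDivisors (Ideal (𝓞 K))) :
    fOf hfin Art I = Multiplicative.toAdd (galEquiv hfin (Art (ClassGroup.mk0 ⟨I, h⟩))) := by
  unfold fOf
  rw [dif_pos h]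

theorem fOf_mul (hfin : Module.finrank K L = p) (Art : ClassGroup (𝓞 K) →* (L ≃ₐ[K] L))
    {I J : Ideal (𝓞 K)} (hI : I ≠ ⊥) (hJ : J ≠ ⊥) :
    fOf hfin Art (I * J) = fOf hfin Art I + fOf hfin Art J := by
  have hI' := mem_nonZeroDivisors_of_ne_bot hI
  have hJ' := mem_nonZeroDivisors_of_ne_bot hJ
  have hIJ' : I * J ∈ nonZeroDivisors (Ideal (𝓞 K)) := mul_mem hI' hJ'
  rw [fOf_of_mem hfin Art hI', fOf_of_mem hfin Art hJ', fOf_of_mem hfin Art hIJ']
  have : (⟨I * J, hIJ'⟩ : nonZeroDivisors (Ideal (𝓞 K))) = ⟨I, hI'⟩ * ⟨J, hJ'⟩ := rfl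
  rw [this, map_mul, map_mul, map_mul, toAdd_mul]

theorem fOf_span (hfin : Module.finrank K L = p) (Art : ClassGroup (𝓞 K) →* (L ≃ₐ[K] L))
    {a : 𝓞 K} (ha : a ≠ 0) : fOf hfin Art (Ideal.span {a}) = 0 := by
  have hne : Ideal.span {a} ≠ (⊥ : Ideal (𝓞 K)) := by
    rw [Ne, Ideal.span_singleton_eq_bot]; exact ha
  have h' := mem_nonZeroDivisors_of_ne_bot hne
  rw [fOf_of_mem hfin Art h']
  have h1 : ClassGroup.mk0 ⟨Ideal.span {a}, h'⟩ = 1 :=
    (ClassGroup.mk0_eq_one_iff h').mpr ⟨⟨a, rfl⟩⟩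
  rw [h1, map_one, map_one, toAdd_one]

theorem fOf_eq_zero_iff (hfin : Module.finrank K L = p) (Art : ClassGroup (𝓞 K) →* (L ≃ₐ[K] L))
    {I : Ideal (𝓞 K)} (h : I ∈ nonZeroDivisors (Ideal (𝓞 K))) :
    fOf hfin Art I = 0 ↔ Art (ClassGroup.mk0 ⟨I, h⟩) = 1 := by
  rw [fOf_of_mem hfin Art h]
  constructor
  · intro h0
    have : galEquiv hfin (Art (ClassGroup.mk0 ⟨I, h⟩)) = 1 := by
      apply Multiplicative.toAdd.injective
      rw [h0, toAdd_one]
    exact (MulEquiv.map_eq_one_iff _).mp this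
  · intro h1
    rw [h1, map_one, toAdd_one]

end Main

/-! ### The main theorem -/

section Final

theorem restrictScalars_pow {K L : Type} [Field K] [Field L] [NumberField K] [NumberField L]
    [Algebra K L] (g : L ≃ₐ[K] L) (k : ℕ) :
    (g ^ k).restrictScalars ℚ = (g.restrictScalars ℚ) ^ k := by
  induction k with
  | zero => rfl
  | succ k ih =>
    rw [pow_succ, pow_succ, ← ih]
    rfl

theorem smul_ideal_ne_bot {K : Type} [Field K] [NumberField K] (σ : K ≃ₐ[ℚ] K)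
    {q : Ideal (𝓞 K)} (hq : q ≠ ⊥) : σ • q ≠ ⊥ := by
  intro h
  apply hq
  have h2 : σ⁻¹ • (σ • q) = σ⁻¹ • (⊥ : Ideal (𝓞 K)) := by rw [h]
  rw [inv_smul_smul] at h2
  rw [h2, Ideal.pointwise_smul_def, Ideal.map_bot]

theorem smul_ideal_ne_bot' {L : Type} [Field L] [NumberField L] (δ : L ≃ₐ[ℚ] L)
    {P : Ideal (𝓞 L)} (hP : P ≠ ⊥) : δ • P ≠ ⊥ :=
  smul_ideal_ne_bot δ hP

theorem ne_bot_of_under_ne_bot {K L : Type} [Field K] [Field L] [NumberField K] [NumberField L]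
    [Algebra K L] {P : Ideal (𝓞 L)} {q : Ideal (𝓞 K)} (hPq : P.under (𝓞 K) = q) (hq : q ≠ ⊥) :
    P ≠ ⊥ := by
  rintro rfl
  apply hq
  rw [← hPq, Ideal.under_def]
  exact Ideal.comap_bot_of_injective _ (FaithfulSMul.algebraMap_injective (𝓞 K) (𝓞 L))

theorem exists_prime_over {K L : Type} [Field K] [Field L] [NumberField K] [NumberField L]
    [Algebra K L] (q : Ideal (𝓞 K)) [q.IsPrime] :
    ∃ P : Ideal (𝓞 L), P.IsPrime ∧ P.under (𝓞 K) = q := by
  obtain ⟨Q, -, hQ, hQq⟩ := Ideal.exists_ideal_over_prime_of_isIntegral q (⊥ : Ideal (𝓞 L)) (by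
    rw [Ideal.comap_bot_of_injective _ (FaithfulSMul.algebraMap_injective (𝓞 K) (𝓞 L))]
    exact bot_le)
  exact ⟨Q, hQ, hQq⟩

/-- The hypotheses on `L/K` used by the glue (all provided by `Interface.NoOmegaInvExt`). -/
structure GlueData (p : ℕ) (K L : Type) [Field K] [Field L] [NumberField K] [NumberField L]
    [Algebra K L] [IsGalois K L] : Prop where
  finrank_eq : Module.finrank K L = p
  unram : ∀ P : Ideal (𝓞 L), P.IsPrime → P ≠ ⊥ → P.inertia (L ≃ₐ[K] L) = ⊥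
  conj : ∀ (δ : L ≃ₐ[ℚ] L) (σ : L ≃ₐ[K] L) (k : ℕ),
    (∀ ζ : L, ζ ^ p = 1 → δ ζ = ζ ^ k) →
    (δ * σ.restrictScalars ℚ * δ⁻¹) ^ k = σ.restrictScalars ℚ

section Equivariance

variable {p : ℕ} [Fact p.Prime]
variable {K L : Type} [Field K] [Field L] [NumberField K] [NumberField L] [Algebra K L]
  [IsCyclotomicExtension {p} ℚ K] [IsGalois K L] [IsGalois ℚ L]

/-- Equivariance of `fOf` at prime ideals (`k`-form: if `σ ζ = ζ ^ k` on `μ_p` then
`k * f (σ • q) = f q`). -/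
theorem fOf_smul_prime (D : GlueData p K L) (Art : ClassGroup (𝓞 K) →* (L ≃ₐ[K] L))
    (hArt : ∀ (q : Ideal (𝓞 K)) (hq : q ∈ nonZeroDivisors (Ideal (𝓞 K))) (P : Ideal (𝓞 L)),
      q.IsPrime → P.IsPrime → P.under (𝓞 K) = q →
        IsArithFrobAt (𝓞 K) (Art (ClassGroup.mk0 ⟨q, hq⟩)) P)
    (σ : K ≃ₐ[ℚ] K) (k : ℕ) (hk : ∀ ζ : K, ζ ^ p = 1 → σ ζ = ζ ^ k)
    (q : Ideal (𝓞 K)) (hq : q.IsPrime) (hqne : q ≠ ⊥) :
    (k : ZMod p) * fOf D.finrank_eq Art (σ • q) = fOf D.finrank_eq Art q := by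
  have hp : p.Prime := Fact.out
  haveI : IsGalois ℚ K := IsCyclotomicExtension.isGalois {p} ℚ K
  obtain ⟨ζ₀, hζ₀⟩ := IsCyclotomicExtension.exists_isPrimitiveRoot ℚ K (Set.mem_singleton p)
    hp.ne_zero
  have hζ₀L : IsPrimitiveRoot (algebraMap K L ζ₀) p :=
    hζ₀.map_of_injective (algebraMap K L).injective
  haveI : NeZero p := ⟨hp.ne_zero⟩
  haveI := hq
  obtain ⟨δ, hδ⟩ := AlgEquiv.restrictNormalHom_surjective (F := ℚ) (K₁ := K) L σ
  have hδ' : δ.restrictNormal K = σ := hδ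
  obtain ⟨P, hP, hPq⟩ := exists_prime_over (L := L) q
  haveI := hP
  have hq' := mem_nonZeroDivisors_of_ne_bot hqne
  have hσq : σ • q ≠ ⊥ := smul_ideal_ne_bot σ hqne
  have hσq' := mem_nonZeroDivisors_of_ne_bot hσq
  have hg : IsArithFrobAt (𝓞 K) (Art (ClassGroup.mk0 ⟨q, hq'⟩)) P := hArt q hq' P hq hP hPq
  have hg' := isArithFrobAt_conjK hg δ
  have hunder : (δ • P).under (𝓞 K) = σ • q := by rw [under_smul, hPq, hδ']
  have hg₂ : IsArithFrobAt (𝓞 K) (Art (ClassGroup.mk0 ⟨σ • q, hσq'⟩)) (δ • P) :=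
    hArt (σ • q) hσq' (δ • P) inferInstance inferInstance hunder
  have hPne : P ≠ ⊥ := ne_bot_of_under_ne_bot hPq hqne
  have hδPne : δ • P ≠ ⊥ := smul_ideal_ne_bot' δ hPne
  have hmem := hg₂.mul_inv_mem_inertia hg'
  rw [D.unram (δ • P) inferInstance hδPne, Subgroup.mem_bot] at hmem
  have heq : Art (ClassGroup.mk0 ⟨σ • q, hσq'⟩) = conjK δ (Art (ClassGroup.mk0 ⟨q, hq'⟩)) :=
    mul_inv_eq_one.mp hmem
  -- `δ` acts on `μ_p(L)` by `ζ ↦ ζ ^ k`
  have hζ : ∀ ζ : L, ζ ^ p = 1 → δ ζ = ζ ^ k := by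
    intro ζ hζ
    obtain ⟨i, -, rfl⟩ := hζ₀L.eq_pow_of_pow_eq_one hζ
    rw [← map_pow, apply_algebraMap, hδ', hk (ζ₀ ^ i) (by rw [← pow_mul, mul_comm, pow_mul,
      hζ₀.pow_eq_one, one_pow]), map_pow]
  have hc := D.conj δ (Art (ClassGroup.mk0 ⟨q, hq'⟩)) k hζ
  have hpow : (conjK δ (Art (ClassGroup.mk0 ⟨q, hq'⟩))) ^ k = Art (ClassGroup.mk0 ⟨q, hq'⟩) := by
    apply AlgEquiv.restrictScalars_injective ℚ
    rw [restrictScalars_pow, conjK_restrictScalars]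
    exact hc
  rw [fOf_of_mem D.finrank_eq Art hσq', fOf_of_mem D.finrank_eq Art hq', heq]
  conv_rhs => rw [← hpow]
  rw [map_pow, toAdd_pow, nsmul_eq_mul]

/-- `fOf ⊤ = 0`. -/
theorem fOf_top (hfin : Module.finrank K L = p) (Art : ClassGroup (𝓞 K) →* (L ≃ₐ[K] L)) :
    fOf hfin Art ⊤ = 0 := by
  have := fOf_span hfin Art (a := (1 : 𝓞 K)) one_ne_zero
  rwa [Ideal.span_singleton_one] at this

theorem smul_ideal_mul (σ : K ≃ₐ[ℚ] K) (I J : Ideal (𝓞 K)) : σ • (I * J) = σ • I * σ • J := by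
  rw [Ideal.pointwise_smul_def, Ideal.pointwise_smul_def, Ideal.pointwise_smul_def, Ideal.map_mul]

theorem smul_ideal_top (σ : K ≃ₐ[ℚ] K) : σ • (⊤ : Ideal (𝓞 K)) = ⊤ := by
  rw [Ideal.pointwise_smul_def]
  exact Ideal.map_top _

/-- Equivariance of `fOf` at every nonzero ideal (`k`-form). -/
theorem fOf_smul (D : GlueData p K L) (Art : ClassGroup (𝓞 K) →* (L ≃ₐ[K] L))
    (hArt : ∀ (q : Ideal (𝓞 K)) (hq : q ∈ nonZeroDivisors (Ideal (𝓞 K))) (P : Ideal (𝓞 L)),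
      q.IsPrime → P.IsPrime → P.under (𝓞 K) = q →
        IsArithFrobAt (𝓞 K) (Art (ClassGroup.mk0 ⟨q, hq⟩)) P)
    (σ : K ≃ₐ[ℚ] K) (k : ℕ) (hk : ∀ ζ : K, ζ ^ p = 1 → σ ζ = ζ ^ k)
    (I : Ideal (𝓞 K)) (hI : I ≠ ⊥) :
    (k : ZMod p) * fOf D.finrank_eq Art (σ • I) = fOf D.finrank_eq Art I := by
  induction I using UniqueFactorizationMonoid.induction_on_prime with
  | h₁ => exact absurd rfl hI
  | h₂ I hu =>
    rw [Ideal.isUnit_iff] at hu
    subst hu
    rw [smul_ideal_top, fOf_top, mul_zero]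
  | h₃ I q hI0 hq ih =>
    have hI' : I ≠ ⊥ := hI0
    have hqne : q ≠ ⊥ := hq.ne_zero
    have hqp : q.IsPrime := Ideal.isPrime_of_prime hq
    rw [smul_ideal_mul, fOf_mul D.finrank_eq Art (smul_ideal_ne_bot σ hqne) (smul_ideal_ne_bot σ hI'),
      fOf_mul D.finrank_eq Art hqne hI', mul_add, ih hI',
      fOf_smul_prime D Art hArt σ k hk q hqp hqne]

end Equivariance

/-- **GLUE**: the three end theorems of (E-C) and (E-S) give `NoOmegaInvExt p`. -/
theorem noOmegaInvExt_of {p : ℕ} (hp : p.Prime) (hA : ARTHyp p) (hN : NSHyp)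
    (hS : STICKHyp p) : Interface.NoOmegaInvExt p := by
  haveI : Fact p.Prime := ⟨hp⟩
  intro K L _ _ _ _ _ _ _ _ hfin hunr _ _ hconj
  have D : GlueData p K L := ⟨hfin, hunr, hconj⟩
  obtain ⟨Art, hArt⟩ := hA K L hfin hunr
  have hstick := hS K (fOf hfin Art) (fun I J hI hJ => fOf_mul hfin Art hI hJ)
    (fun a ha => fOf_span hfin Art ha)
    (fun σ k hk q hq hqne => fOf_smul_prime D Art hArt σ k hk q hq hqne)
  -- a degree-one prime with nontrivial Frobenius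
  obtain ⟨q, P, τ, hq, hqN, hqp, hP, hPq, hτ, hτ1⟩ :=
    hN K L (by rw [hfin]; exact hp.one_lt.ne') p hp.ne_zero
  have hqne : q ≠ ⊥ := by
    rintro rfl
    rw [Ideal.absNorm_bot] at hqN
    exact Nat.not_prime_zero hqN
  have hq' := mem_nonZeroDivisors_of_ne_bot hqne
  have h0 : fOf hfin Art q = 0 := hstick q hq hqN (fun h => hqp (h ▸ dvd_refl _))
  have h1 : Art (ClassGroup.mk0 ⟨q, hq'⟩) = 1 := (fOf_eq_zero_iff hfin Art hq').mp h0
  have hF := hArt q hq' P hq hP hPq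
  rw [h1] at hF
  have hPne : P ≠ ⊥ := ne_bot_of_under_ne_bot hPq hqne
  have hmem := hτ.mul_inv_mem_inertia hF
  rw [hunr P hP hPne, Subgroup.mem_bot, inv_one, mul_one] at hmem
  exact hτ1 hmem

end Final

end Fermat.Agent.S14.ArtinGlue
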