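/-
Program E (S14), piece (T1) (helper15): PURE ALGEBRA on an admissible extension `(V, C)`.

`G = Gal(Qbar/ℚ)` acts on `V` (`|V| = p²`), `C` is a line fixed pointwise and `G` acts on `V/C`
through the mod-`p` cyclotomic character `chi`.

* `chi`, `chiHom`                : the mod-`p` cyclotomic character as a function / monoid hom;
* `kerV`                         : the kernel `H` of the action on `V` (a normal subgroup);
* `GK`                           : the kernel of `chi`;
* `splitsGlobally_of_caseA`      : CASE A — if `GK ≤ H` (and `chi ≠ 1`), the extension splits;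
* `exists_cocycle`               : a basis `c ∈ C`, `v₀ ∉ C` and the cocycle `b` with
                                   `σ • v₀ = chi σ • v₀ + b σ • c`, its cocycle identity, the
                                   description `H = {chi = 1, b = 0}`, the conjugation formula
                                   `b (δ σ δ⁻¹) = (chi δ)⁻¹ * b σ` on `GK`;
* `decomposition_inf_GK_le_kerV` : for `A` over `p`: `D_A ∩ GK ≤ H` (from `locally_split`);
* `inertia_le_kerV`              : for `A` over `ℓ ≠ p`: `I_A ≤ H`.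
-/
import Mathlib
import Fermat.Prelude.Def_ExtCitation_AdmissibleExtension_v2

set_option autoImplicit false

namespace Fermat.Agent.S14.ExtCocycle

open ExtCitation

local notation "Qbar" => AlgebraicClosure ℚ
local notation "Γℚ" => (AlgebraicClosure ℚ ≃ₐ[ℚ] AlgebraicClosure ℚ)

variable (p : ℕ) [Fact p.Prime]

/-! ### The cyclotomic character -/

/-- The coercion `Γℚ →* (Qbar ≃+* Qbar)`. -/
noncomputable def toRingEquivHom : Γℚ →* (Qbar ≃+* Qbar) where
  toFun σ := (σ : Qbar ≃+* Qbar)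
  map_one' := rfl
  map_mul' _ _ := rfl

/-- The mod-`p` cyclotomic character as a monoid hom to `(ZMod p)ˣ`. -/
noncomputable def chiHom : Γℚ →* (ZMod p)ˣ :=
  haveI : NeZero p := ⟨(Fact.out : p.Prime).ne_zero⟩
  (modularCyclotomicCharacter Qbar (card_rootsOfUnity_eq_self p)).comp toRingEquivHom

/-- The mod-`p` cyclotomic character with values in `ZMod p`. -/
noncomputable def chi (σ : Γℚ) : ZMod p := ((chiHom p σ : (ZMod p)ˣ) : ZMod p)

theorem cycloExp_cast (σ : Γℚ) : ((cycloExp p σ : ℕ) : ZMod p) = chi p σ := by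
  haveI : NeZero p := ⟨(Fact.out : p.Prime).ne_zero⟩
  unfold cycloExp chi chiHom
  rw [ZMod.natCast_zmod_val]
  rfl

theorem chi_one : chi p 1 = 1 := by
  unfold chi; rw [map_one]; rfl

theorem chi_mul (σ τ : Γℚ) : chi p (σ * τ) = chi p σ * chi p τ := by
  unfold chi; rw [map_mul]; push_cast; rfl

theorem chi_ne_zero (σ : Γℚ) : chi p σ ≠ 0 := (chiHom p σ).ne_zero

theorem chi_inv (σ : Γℚ) : chi p σ⁻¹ = (chi p σ)⁻¹ := by
  have h : chi p σ⁻¹ * chi p σ = 1 := by rw [← chi_mul, inv_mul_cancel, chi_one]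
  exact eq_inv_of_mul_eq_one_left h

theorem chi_conj (δ σ : Γℚ) : chi p (δ * σ * δ⁻¹) = chi p σ := by
  rw [chi_mul, chi_mul, chi_inv, mul_comm (chi p δ), mul_assoc, mul_inv_cancel₀ (chi_ne_zero p δ),
    mul_one]

/-- The kernel of the cyclotomic character (`= Gal(Qbar/ℚ(ζ_p))`). -/
noncomputable def GK : Subgroup Γℚ := (chiHom p).ker

theorem mem_GK {σ : Γℚ} : σ ∈ GK p ↔ chi p σ = 1 := by
  unfold GK chi
  rw [MonoidHom.mem_ker]
  constructor
  · intro h; rw [h]; rfl
  · intro h; exact Units.ext h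

instance : (GK p).Normal := by unfold GK; infer_instance

/-! ### The kernel of the action -/

section Action

variable (V : Type) [AddCommGroup V] [Module (ZMod p) V]
  [DistribMulAction Γℚ V] [SMulCommClass Γℚ (ZMod p) V]

/-- The kernel `H` of the action of `Γℚ` on `V`. -/
def kerV : Subgroup Γℚ where
  carrier := {σ | ∀ v : V, σ • v = v}
  one_mem' := fun v => one_smul _ v
  mul_mem' := fun {σ τ} hσ hτ v => by rw [mul_smul, hτ v, hσ v]
  inv_mem' := fun {σ} hσ v => by
    have := hσ v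
    rw [inv_smul_eq_iff]
    exact this.symm

variable {V}

theorem mem_kerV {σ : Γℚ} : σ ∈ kerV V ↔ ∀ v : V, σ • v = v := Iff.rfl

instance : (kerV V).Normal where
  conj_mem σ hσ δ v := by
    rw [mul_smul, mul_smul, hσ (δ⁻¹ • v), smul_inv_smul]

end Action

/-! ### Consequences of admissibility -/

section Adm

variable {p}
variable {V : Type} [AddCommGroup V] [Module (ZMod p) V]
  [DistribMulAction Γℚ V] [SMulCommClass Γℚ (ZMod p) V]
  {C : Submodule (ZMod p) V}

theorem smul_sub_chi_mem (hadm : IsAdmissibleExtension p V C) (σ : Γℚ) (x : V) :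
    σ • x - chi p σ • x ∈ C := by
  have := hadm.cyclo_quot σ x
  rwa [cycloExp_cast] at this

theorem exists_notMem (hadm : IsAdmissibleExtension p V C) : ∃ v : V, v ∉ C := by
  by_contra hcon
  push_neg at hcon
  have htop : C = ⊤ := eq_top_iff.mpr fun x _ => hcon x
  have h1 : Nat.card C = Nat.card V := by
    rw [htop]; exact Nat.card_congr (Equiv.Set.univ V)
  rw [hadm.card_sub, hadm.card_total] at h1
  have hp := (Fact.out : p.Prime).one_lt
  nlinarith [h1]

theorem exists_ne_zero_mem (hadm : IsAdmissibleExtension p V C) : ∃ c ∈ C, c ≠ 0 := by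
  have hp := (Fact.out : p.Prime).one_lt
  haveI : Finite C := Nat.finite_of_card_ne_zero (by rw [hadm.card_sub]; omega)
  have : 1 < Nat.card C := by rw [hadm.card_sub]; exact hp
  haveI : Nontrivial C := Finite.one_lt_card_iff_nontrivial.mp this
  obtain ⟨x, hx⟩ := exists_ne (0 : C)
  exact ⟨x, x.2, fun h => hx (Subtype.ext h)⟩

/-- Every element of `C` is a multiple of a given nonzero element of `C`. -/
theorem exists_smul_eq_of_mem (hadm : IsAdmissibleExtension p V C) {c : V} (hc : c ∈ C)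
    (hc0 : c ≠ 0) {x : V} (hx : x ∈ C) : ∃ t : ZMod p, x = t • c := by
  classical
  have hp := (Fact.out : p.Prime)
  haveI : Finite C := Nat.finite_of_card_ne_zero (by rw [hadm.card_sub]; exact hp.ne_zero)
  haveI : Fintype C := Fintype.ofFinite C
  let φ : ZMod p → C := fun t => ⟨t • c, C.smul_mem t hc⟩
  have hinj : Function.Injective φ := by
    intro s t hst
    have h : s • c = t • c := congrArg Subtype.val hst
    have h2 : (s - t) • c = 0 := by rw [sub_smul, h, sub_self]
    rcases smul_eq_zero.mp h2 with h3 | h3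
    · exact sub_eq_zero.mp h3
    · exact absurd h3 hc0
  have hcard : Fintype.card (ZMod p) = Fintype.card C := by
    rw [ZMod.card, ← Nat.card_eq_fintype_card, hadm.card_sub]
  have hbij : Function.Bijective φ :=
    (Fintype.bijective_iff_injective_and_card φ).mpr ⟨hinj, hcard⟩
  obtain ⟨t, ht⟩ := hbij.2 ⟨x, hx⟩
  exact ⟨t, (congrArg Subtype.val ht).symm⟩

/-- `H ≤ GK`: an automorphism acting trivially on `V` has trivial cyclotomic character. -/
theorem kerV_le_GK (hadm : IsAdmissibleExtension p V C) : kerV V ≤ GK p := by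
  intro σ hσ
  rw [mem_GK]
  obtain ⟨v, hv⟩ := exists_notMem hadm
  have h := smul_sub_chi_mem hadm σ v
  rw [hσ v] at h
  by_contra hne
  have h1 : (1 - chi p σ) • v ∈ C := by rwa [sub_smul, one_smul]
  have hunit : (1 - chi p σ) ≠ 0 := sub_ne_zero.mpr (Ne.symm hne)
  have : v ∈ C := by
    have := C.smul_mem (1 - chi p σ)⁻¹ h1
    rwa [smul_smul, inv_mul_cancel₀ hunit, one_smul] at this
  exact hv this

/-- CASE A: if every automorphism with trivial cyclotomic character acts trivially on `V`, and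
the cyclotomic character is nontrivial, then the extension splits globally. -/
theorem splitsGlobally_of_caseA (hadm : IsAdmissibleExtension p V C)
    (hchi : ∃ σ₀ : Γℚ, chi p σ₀ ≠ 1) (hA : GK p ≤ kerV V) : SplitsGlobally C := by
  obtain ⟨σ₀, hσ₀⟩ := hchi
  have hu : chi p σ₀ - 1 ≠ 0 := sub_ne_zero.mpr hσ₀
  -- the `chi σ₀`-eigenspace of `σ₀`
  let C' : Submodule (ZMod p) V :=
    { carrier := {x | σ₀ • x = chi p σ₀ • x}
      add_mem' := fun {x y} hx hy => by
        show σ₀ • (x + y) = chi p σ₀ • (x + y)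
        rw [smul_add, smul_add, hx, hy]
      zero_mem' := by
        show σ₀ • (0 : V) = chi p σ₀ • (0 : V)
        rw [smul_zero, smul_zero]
      smul_mem' := fun t x hx => by
        show σ₀ • (t • x) = chi p σ₀ • (t • x)
        rw [smul_comm σ₀ t x, hx, smul_comm] }
  have hmemC' : ∀ x : V, x ∈ C' ↔ σ₀ • x = chi p σ₀ • x := fun _ => Iff.rfl
  refine ⟨C', ?_, ?_⟩
  · -- stability: commutators act trivially
    intro τ x hx
    rw [hmemC'] at hx ⊢
    have hcomm : σ₀⁻¹ * τ⁻¹ * σ₀ * τ ∈ kerV V := by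
      apply hA
      rw [mem_GK, chi_mul, chi_mul, chi_mul, chi_inv, chi_inv]
      field_simp [chi_ne_zero p σ₀, chi_ne_zero p τ]
    have h1 : σ₀ • τ • x = τ • σ₀ • x := by
      have h2 := hcomm x
      rw [mul_smul, mul_smul, mul_smul] at h2
      -- σ₀⁻¹ • τ⁻¹ • σ₀ • τ • x = x
      have h3 : τ⁻¹ • σ₀ • τ • x = σ₀ • x := by
        have h4 := congrArg (fun y => σ₀ • y) h2
        simpa only [smul_inv_smul] using h4
      rw [← h3, smul_inv_smul]
    rw [h1, hx, smul_comm]
  · constructor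
    · -- disjoint
      rw [Submodule.disjoint_def]
      intro x hxC hxC'
      rw [hmemC'] at hxC'
      rw [hadm.fixed_sub σ₀ x hxC] at hxC'
      have : (chi p σ₀ - 1) • x = 0 := by rw [sub_smul, one_smul, ← hxC', sub_self]
      rcases smul_eq_zero.mp this with h | h
      · exact absurd h hu
      · exact h
    · -- codisjoint
      rw [codisjoint_iff, eq_top_iff]
      intro x _
      set y : V := σ₀ • x - chi p σ₀ • x with hy
      have hyC : y ∈ C := smul_sub_chi_mem hadm σ₀ x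
      set t : ZMod p := (chi p σ₀ - 1)⁻¹ with ht
      have hx' : x + t • y ∈ C' := by
        rw [hmemC', smul_add, smul_comm σ₀ t y, hadm.fixed_sub σ₀ y hyC]
        have e1 : σ₀ • x = chi p σ₀ • x + y := by rw [hy]; abel
        rw [e1, smul_add, smul_smul]
        have e2 : chi p σ₀ * t = 1 + t := by
          rw [ht]; field_simp; ring
        rw [e2, add_smul, one_smul]; abel
      have : x = -(t • y) + (x + t • y) := by abel
      rw [this]
      exact Submodule.add_mem_sup (C.neg_mem (C.smul_mem t hyC)) hx'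

/-- The cocycle attached to an admissible extension, with all its formal properties. -/
theorem exists_cocycle (hadm : IsAdmissibleExtension p V C) :
    ∃ (c v₀ : V) (b : Γℚ → ZMod p), c ∈ C ∧ c ≠ 0 ∧ v₀ ∉ C ∧
      (∀ σ, σ • v₀ = chi p σ • v₀ + b σ • c) ∧
      (∀ σ τ, b (σ * τ) = b τ + chi p τ * b σ) ∧
      (∀ σ, σ ∈ kerV V ↔ chi p σ = 1 ∧ b σ = 0) ∧
      (∀ σ ∈ GK p, ∀ τ ∈ GK p, b (σ * τ) = b σ + b τ) ∧
      (∀ δ σ, σ ∈ GK p → b (δ * σ * δ⁻¹) = (chi p δ)⁻¹ * b σ) := by
  classical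
  obtain ⟨c, hcC, hc0⟩ := exists_ne_zero_mem hadm
  obtain ⟨v₀, hv₀⟩ := exists_notMem hadm
  have hex : ∀ σ : Γℚ, ∃ t : ZMod p, σ • v₀ - chi p σ • v₀ = t • c := fun σ =>
    exists_smul_eq_of_mem hadm hcC hc0 (smul_sub_chi_mem hadm σ v₀)
  choose b hb using hex
  have hbv : ∀ σ, σ • v₀ = chi p σ • v₀ + b σ • c := fun σ => by
    rw [← hb σ]; abel
  have hcinj : ∀ s t : ZMod p, s • c = t • c → s = t := by
    intro s t h
    have h2 : (s - t) • c = 0 := by rw [sub_smul, h, sub_self]
    rcases smul_eq_zero.mp h2 with h3 | h3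
    · exact sub_eq_zero.mp h3
    · exact absurd h3 hc0
  have hfix : ∀ σ : Γℚ, σ • c = c := fun σ => hadm.fixed_sub σ c hcC
  have hcoc : ∀ σ τ, b (σ * τ) = b τ + chi p τ * b σ := by
    intro σ τ
    have h1 : (σ * τ) • v₀ = chi p (σ * τ) • v₀ + b (σ * τ) • c := hbv (σ * τ)
    have h2 : (σ * τ) • v₀ = chi p (σ * τ) • v₀ + (b τ + chi p τ * b σ) • c := by
      rw [mul_smul, hbv τ, smul_add, smul_comm σ (chi p τ) v₀, smul_comm σ (b τ) c, hfix σ, hbv σ,
        smul_add, smul_smul, smul_smul, chi_mul, add_smul, mul_comm (chi p σ) (chi p τ)]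
      abel
    rw [h1] at h2
    exact hcinj _ _ (add_left_cancel h2)
  -- every vector is `s • v₀ + t • c`
  have hspan : ∀ x : V, ∃ s t : ZMod p, x = s • v₀ + t • c := by
    -- counting: the map `(s,t) ↦ s • v₀ + t • c` is injective on a set of `p²` elements
    have hp := (Fact.out : p.Prime)
    haveI : Finite V := Nat.finite_of_card_ne_zero (by rw [hadm.card_total]; exact pow_ne_zero 2 hp.ne_zero)
    haveI : Fintype V := Fintype.ofFinite V
    let φ : ZMod p × ZMod p → V := fun st => st.1 • v₀ + st.2 • c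
    have hinj : Function.Injective φ := by
      rintro ⟨s, t⟩ ⟨s', t'⟩ h
      have h' : s • v₀ + t • c = s' • v₀ + t' • c := h
      have h1 : (s - s') • v₀ = (t' - t) • c := by
        rw [sub_smul, sub_smul]
        have := h'
        calc s • v₀ - s' • v₀ = (s • v₀ + t • c) - t • c - s' • v₀ := by abel
          _ = (s' • v₀ + t' • c) - t • c - s' • v₀ := by rw [this]
          _ = t' • c - t • c := by abel
      have hs : s = s' := by
        by_contra hne
        have hu : s - s' ≠ 0 := sub_ne_zero.mpr hne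
        have : v₀ ∈ C := by
          have h2 : (s - s') • v₀ ∈ C := by rw [h1]; exact C.smul_mem _ hcC
          have := C.smul_mem (s - s')⁻¹ h2
          rwa [smul_smul, inv_mul_cancel₀ hu, one_smul] at this
        exact hv₀ this
      subst hs
      rw [sub_self, zero_smul] at h1
      have ht : t' = t := by
        have := hcinj (t' - t) 0 (by rw [← h1, zero_smul])
        exact sub_eq_zero.mp this
      rw [ht]
    have hcard : Fintype.card (ZMod p × ZMod p) = Fintype.card V := by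
      rw [Fintype.card_prod, ZMod.card, ← Nat.card_eq_fintype_card, hadm.card_total, sq]
    have hbij : Function.Bijective φ :=
      (Fintype.bijective_iff_injective_and_card φ).mpr ⟨hinj, hcard⟩
    intro x
    obtain ⟨⟨s, t⟩, hst⟩ := hbij.2 x
    exact ⟨s, t, hst.symm⟩
  have hker : ∀ σ, σ ∈ kerV V ↔ chi p σ = 1 ∧ b σ = 0 := by
    intro σ
    constructor
    · intro hσ
      have h1 : chi p σ = 1 := (mem_GK p).mp (kerV_le_GK hadm hσ)
      refine ⟨h1, ?_⟩
      have h2 := hbv σ
      rw [hσ v₀, h1, one_smul] at h2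
      have : b σ • c = (0 : ZMod p) • c := by
        rw [zero_smul]
        have := h2
        calc b σ • c = (v₀ + b σ • c) - v₀ := by abel
          _ = v₀ - v₀ := by rw [← this]
          _ = 0 := sub_self _
      exact hcinj _ _ this
    · rintro ⟨h1, h2⟩ x
      obtain ⟨s, t, rfl⟩ := hspan x
      rw [smul_add, smul_comm σ s v₀, smul_comm σ t c, hfix σ, hbv σ, h1, h2, one_smul, zero_smul,
        add_zero]
  have hadd : ∀ σ ∈ GK p, ∀ τ ∈ GK p, b (σ * τ) = b σ + b τ := by
    intro σ _ τ hτ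
    rw [hcoc, (mem_GK p).mp hτ, one_mul, add_comm]
  have hconj : ∀ δ σ, σ ∈ GK p → b (δ * σ * δ⁻¹) = (chi p δ)⁻¹ * b σ := by
    intro δ σ hσ
    have hδ : b δ⁻¹ = -((chi p δ)⁻¹ * b δ) := by
      have h1 : b (δ * δ⁻¹) = b δ⁻¹ + chi p δ⁻¹ * b δ := hcoc δ δ⁻¹
      have h0 : b 1 = 0 := by
        have := hcoc 1 1
        rw [mul_one, chi_one, one_mul] at this
        -- b 1 = b 1 + b 1
        have h' : b 1 + 0 = b 1 + b 1 := by rw [add_zero]; exact this
        exact (add_left_cancel h').symm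
      rw [mul_inv_cancel, h0, chi_inv] at h1
      exact eq_neg_of_add_eq_zero_left h1.symm
    rw [hcoc (δ * σ) δ⁻¹, hcoc δ σ, (mem_GK p).mp hσ, one_mul, hδ, chi_inv]
    ring
  exact ⟨c, v₀, b, hcC, hc0, hv₀, hbv, hcoc, hker, hadd, hconj⟩

/-- For `A` over `ℓ ≠ p`, the inertia group of `A` acts trivially on `V`. -/
theorem inertia_le_kerV (hadm : IsAdmissibleExtension p V C) {ℓ : ℕ} (hℓ : ℓ.Prime) (hℓp : ℓ ≠ p)
    (A : ValuationSubring Qbar) (hA : A.LiesOverPrime ℓ) :
    A.inertiaSubgroupIn ℚ ≤ kerV V :=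
  fun σ hσ v => hadm.unramified_outside ℓ hℓ hℓp A hA σ hσ v

/-- For `A` over `p`, an element of the decomposition group of `A` with trivial cyclotomic
character acts trivially on `V`. -/
theorem decomposition_inf_GK_le_kerV (hadm : IsAdmissibleExtension p V C)
    (A : ValuationSubring Qbar) (hA : A.LiesOverPrime p) :
    A.decompositionSubgroup ℚ ⊓ GK p ≤ kerV V := by
  rintro σ ⟨hσD, hσK⟩ x
  obtain ⟨C', hC'stab, hcompl⟩ := hadm.locally_split A hA
  have hχ : chi p σ = 1 := (mem_GK p).mp hσK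
  -- decompose `x = y + z`, `y ∈ C`, `z ∈ C'`
  have hx : x ∈ C ⊔ C' := by rw [hcompl.sup_eq_top]; exact Submodule.mem_top
  obtain ⟨y, hy, z, hz, rfl⟩ := Submodule.mem_sup.mp hx
  have hz' : σ • z ∈ C' := hC'stab σ hσD z hz
  have hzC : σ • z - z ∈ C := by
    have := smul_sub_chi_mem hadm σ z
    rwa [hχ, one_smul] at this
  have hzC' : σ • z - z ∈ C' := C'.sub_mem hz' hz
  have h0 : σ • z - z = 0 := by
    have := Submodule.disjoint_def.mp hcompl.disjoint (σ • z - z) hzC hzC'
    exact this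
  rw [smul_add, hadm.fixed_sub σ y hy, sub_eq_zero.mp h0]

/-! ### The package used by the field-theoretic part -/

theorem mem_GK_iff_cycloExp {σ : Γℚ} : σ ∈ GK p ↔ ((cycloExp p σ : ℕ) : ZMod p) = 1 := by
  rw [mem_GK, cycloExp_cast]

/-- The kernel of the action is open (continuity hypothesis of `IsAdmissibleExtensionCts`). -/
theorem isOpen_kerV (hadm : IsAdmissibleExtensionCts p V C) :
    IsOpen ((kerV V : Subgroup Γℚ) : Set Γℚ) :=
  hadm.open_kernel

/-- A function on `Γℚ` which is additive on `GK` and nonzero somewhere on `GK` is onto `ZMod p`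
on `GK`. -/
theorem exists_mem_GK_eq (b : Γℚ → ZMod p)
    (hadd : ∀ σ ∈ GK p, ∀ τ ∈ GK p, b (σ * τ) = b σ + b τ)
    {σ₁ : Γℚ} (hσ₁ : σ₁ ∈ GK p) (hb : b σ₁ ≠ 0) (t : ZMod p) : ∃ σ ∈ GK p, b σ = t := by
  have h1 : b 1 = 0 := by
    have := hadd 1 (one_mem _) 1 (one_mem _)
    rw [mul_one] at this
    have h' : b 1 + 0 = b 1 + b 1 := by rw [add_zero]; exact this
    exact (add_left_cancel h').symm
  have hpow : ∀ n : ℕ, b (σ₁ ^ n) = (n : ZMod p) * b σ₁ := by
    intro n
    induction n with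
    | zero => simp [h1]
    | succ n ih =>
      rw [pow_succ, hadd _ (pow_mem hσ₁ n) _ hσ₁, ih]
      push_cast; ring
  refine ⟨σ₁ ^ (t * (b σ₁)⁻¹).val, pow_mem hσ₁ _, ?_⟩
  rw [hpow, ZMod.natCast_zmod_val, mul_assoc, inv_mul_cancel₀ hb, mul_one]

/-- CASE B package: if the extension does not split globally (and `chi ≠ 1`), there is a function
`b : Γℚ → ZMod p`, additive on `GK`, onto on `GK`, with `{σ ∈ GK | b σ = 0} = H = kerV V`, and
`b (δ σ δ⁻¹) = (chi δ)⁻¹ b σ` for `σ ∈ GK`. -/
theorem exists_cocycle_of_not_splits (hadm : IsAdmissibleExtension p V C)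
    (hchi : ∃ σ₀ : Γℚ, chi p σ₀ ≠ 1) (hns : ¬ SplitsGlobally C) :
    ∃ b : Γℚ → ZMod p,
      (∀ σ ∈ GK p, ∀ τ ∈ GK p, b (σ * τ) = b σ + b τ) ∧
      (∀ σ ∈ GK p, (σ ∈ kerV V ↔ b σ = 0)) ∧
      (∀ t : ZMod p, ∃ σ ∈ GK p, b σ = t) ∧
      (∀ δ σ, σ ∈ GK p → b (δ * σ * δ⁻¹) = (chi p δ)⁻¹ * b σ) := by
  obtain ⟨c, v₀, b, -, -, -, -, -, hker, hadd, hconj⟩ := exists_cocycle hadm
  have hnot : ¬ GK p ≤ kerV V := fun h => hns (splitsGlobally_of_caseA hadm hchi h)
  obtain ⟨σ₁, hσ₁, hσ₁'⟩ := SetLike.not_le_iff_exists.mp hnot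
  have hb1 : b σ₁ ≠ 0 := fun h => hσ₁' ((hker σ₁).mpr ⟨(mem_GK p).mp hσ₁, h⟩)
  refine ⟨b, hadd, ?_, exists_mem_GK_eq b hadd hσ₁ hb1, hconj⟩
  intro σ hσ
  rw [hker σ]
  exact ⟨fun h => h.2, fun h => ⟨(mem_GK p).mp hσ, h⟩⟩

end Adm

end Fermat.Agent.S14.ExtCocycle
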