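/-
Program E / E-T (T2) (helper11): the field-theoretic half of the translation of a non-split
admissible extension into an unramified `ω⁻¹`-extension of `ℚ(ζ_p)`.

Everything happens inside `Qbar = AlgebraicClosure ℚ`, for `G = Gal(Qbar/ℚ)`.
-/
import Mathlib
import Fermat.Prelude.Def_ExtCitation_AdmissibleExtension_v2
import Fermat.Agent.S14.ExtCocycle

set_option autoImplicit false

namespace Fermat.Agent.S14.Fields

open ExtCitation IntermediateField
open Fermat.Agent.S14.ExtCocycle (chiHom chi GK kerV cycloExp_cast mem_GK)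

local notation "Qbar" => AlgebraicClosure ℚ
local notation "GQ" => (AlgebraicClosure ℚ ≃ₐ[ℚ] AlgebraicClosure ℚ)

variable (p : ℕ) [Fact p.Prime]

instance neZero_p : NeZero p := ⟨(Fact.out : p.Prime).ne_zero⟩

instance isAlgClosure_rat : IsAlgClosure ℚ Qbar :=
  ⟨inferInstance, AlgebraicClosure.isAlgebraic ℚ⟩

instance isGalois_rat : IsGalois ℚ Qbar := inferInstance

instance isAlgebraic_rat : Algebra.IsAlgebraic ℚ Qbar := IsAlgClosure.isAlgebraic

instance isAlgebraic_intermediate (L : IntermediateField ℚ Qbar) : Algebra.IsAlgebraic ℚ L :=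
  Algebra.IsAlgebraic.of_injective L.val L.val.injective

instance isIntegral_intermediate (L : IntermediateField ℚ Qbar) : Algebra.IsIntegral ℚ L :=
  Algebra.IsAlgebraic.isIntegral

/-! ### The cyclotomic character (definitions `chiHom`, `chi`, `GK` are those of `ExtCocycle`) -/

/-- The defining property of `cycloExp`: `σ` raises every `p`-th root of unity to the power
`cycloExp p σ`. -/
theorem apply_eq_pow_cycloExp (σ : GQ) {t : Qbar} (ht : t ^ p = 1) : σ t = t ^ cycloExp p σ := by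
  have htu : IsUnit t := IsUnit.of_pow_eq_one ht (NeZero.ne p)
  obtain ⟨u, rfl⟩ := htu
  have hu : u ∈ rootsOfUnity p Qbar := by
    rw [mem_rootsOfUnity]
    exact Units.ext (by simpa using ht)
  exact modularCyclotomicCharacter.spec Qbar (card_rootsOfUnity_eq_self p)
    (σ : Qbar ≃+* Qbar) hu

/-! ### The primitive root and the cyclotomic field -/

theorem exists_zeta : ∃ ζ : Qbar, IsPrimitiveRoot ζ p :=
  haveI : NeZero (p : Qbar) := ⟨Nat.cast_ne_zero.mpr (NeZero.ne p)⟩
  HasEnoughRootsOfUnity.exists_primitiveRoot Qbar p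

/-- A chosen primitive `p`-th root of unity in `Qbar`. -/
noncomputable def zeta : Qbar := (exists_zeta p).choose

theorem zeta_spec : IsPrimitiveRoot (zeta p) p := (exists_zeta p).choose_spec

theorem apply_zeta (σ : GQ) : σ (zeta p) = zeta p ^ cycloExp p σ :=
  apply_eq_pow_cycloExp p σ (zeta_spec p).pow_eq_one

theorem mem_GK_iff {σ : GQ} : σ ∈ GK p ↔ ((cycloExp p σ : ℕ) : ZMod p) = 1 :=
  ExtCocycle.mem_GK_iff_cycloExp

theorem zeta_pow_eq_pow_iff {a b : ℕ} :
    zeta p ^ a = zeta p ^ b ↔ ((a : ℕ) : ZMod p) = ((b : ℕ) : ZMod p) := by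
  have hζ := zeta_spec p
  have hord : orderOf (zeta p) = p := hζ.eq_orderOf.symm
  have hz0 : zeta p ≠ 0 := hζ.ne_zero (NeZero.ne p)
  rw [ZMod.natCast_eq_natCast_iff]
  have hfin : IsOfFinOrder (zeta p) := by
    rw [← orderOf_pos_iff, hord]; exact (Fact.out : p.Prime).pos
  rw [hfin.pow_eq_pow_iff_modEq, hord]

theorem mem_GK_iff_apply_zeta {σ : GQ} : σ ∈ GK p ↔ σ (zeta p) = zeta p := by
  rw [mem_GK_iff, apply_zeta]
  conv_lhs => rw [← Nat.cast_one (R := ZMod p)]
  rw [← zeta_pow_eq_pow_iff, pow_one]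

/-- The cyclotomic character is surjective. -/
theorem exists_cycloExp_eq (a : (ZMod p)ˣ) : ∃ σ : GQ, ((cycloExp p σ : ℕ) : ZMod p) = a := by
  have hζ := zeta_spec p
  have hirr : Irreducible (Polynomial.cyclotomic p ℚ) :=
    Polynomial.cyclotomic.irreducible_rat (Fact.out : p.Prime).pos
  have hμ : IsPrimitiveRoot (zeta p ^ (a : ZMod p).val) p :=
    hζ.pow_of_coprime _ (ZMod.val_coe_unit_coprime a)
  have hmin : minpoly ℚ (zeta p ^ (a : ZMod p).val) = minpoly ℚ (zeta p) := by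
    rw [← hμ.minpoly_eq_cyclotomic_of_irreducible hirr,
      ← hζ.minpoly_eq_cyclotomic_of_irreducible hirr]
  obtain ⟨σ, hσ⟩ := minpoly.exists_algEquiv_of_root
    (K := ℚ) (L := Qbar) (x := zeta p) (y := zeta p ^ (a : ZMod p).val)
    (Algebra.IsAlgebraic.isAlgebraic _) (by rw [hmin]; exact minpoly.aeval ℚ _)
  refine ⟨σ, ?_⟩
  rw [apply_zeta, zeta_pow_eq_pow_iff, ZMod.natCast_zmod_val] at hσ
  exact hσ

theorem exists_cycloExp_ne_one (h3 : 3 ≤ p) : ∃ σ : GQ, ((cycloExp p σ : ℕ) : ZMod p) ≠ 1 := by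
  have : Fact (2 < p) := ⟨h3⟩
  obtain ⟨σ, hσ⟩ := exists_cycloExp_eq p (-1 : (ZMod p)ˣ)
  refine ⟨σ, ?_⟩
  rw [hσ, Units.val_neg, Units.val_one]
  exact ZMod.neg_one_ne_one

theorem exists_chi_eq (a : (ZMod p)ˣ) : ∃ σ : GQ, chi p σ = a := by
  obtain ⟨σ, hσ⟩ := exists_cycloExp_eq p a
  exact ⟨σ, by rw [← cycloExp_cast, hσ]⟩

/-- `hchi` of `ExtCocycle`: the cyclotomic character is nontrivial for `p ≥ 3`. -/
theorem exists_chi_ne_one (h3 : 3 ≤ p) : ∃ σ₀ : GQ, chi p σ₀ ≠ 1 := by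
  obtain ⟨σ, hσ⟩ := exists_cycloExp_ne_one p h3
  exact ⟨σ, by rwa [← cycloExp_cast]⟩

/-- The cyclotomic field `ℚ(ζ_p)` inside `Qbar`. -/
noncomputable def Kz : IntermediateField ℚ Qbar := IntermediateField.adjoin ℚ {zeta p}

theorem zeta_mem_Kz : zeta p ∈ Kz p := IntermediateField.mem_adjoin_simple_self ℚ (zeta p)

instance isCyclotomicExtension_Kz : IsCyclotomicExtension {p} ℚ (Kz p) :=
  (zeta_spec p).intermediateField_adjoin_isCyclotomicExtension ℚ

instance finiteDimensional_Kz : FiniteDimensional ℚ (Kz p) :=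
  IsCyclotomicExtension.finiteDimensional {p} ℚ (Kz p)

instance isGalois_Kz : IsGalois ℚ (Kz p) := IsCyclotomicExtension.isGalois {p} ℚ (Kz p)

theorem finrank_Kz : Module.finrank ℚ (Kz p) = p - 1 := by
  rw [IsCyclotomicExtension.finrank (n := p) (Kz p)
    (Polynomial.cyclotomic.irreducible_rat (Fact.out : p.Prime).pos),
    Nat.totient_prime Fact.out]

theorem fixingSubgroup_Kz : (Kz p).fixingSubgroup = GK p := by
  ext σ
  rw [mem_GK_iff_apply_zeta, Kz, IntermediateField.mem_fixingSubgroup_iff]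
  constructor
  · intro h
    exact h _ (IntermediateField.mem_adjoin_simple_self ℚ (zeta p))
  · intro h x hx
    have hinv : σ⁻¹ (zeta p) = zeta p := by
      conv_lhs => rw [← h]
      exact σ.symm_apply_apply _
    have key : ∀ k : ℤ, (σ ^ k) (zeta p) = zeta p := by
      intro k
      induction k using Int.induction_on with
      | zero => simp
      | succ n ih => rw [zpow_add_one, AlgEquiv.mul_apply, h, ih]
      | pred n ih => rw [zpow_sub_one, AlgEquiv.mul_apply, hinv, ih]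
    have : IntermediateField.adjoin ℚ {zeta p} ≤
        IntermediateField.fixedField (Subgroup.zpowers σ) := by
      rw [IntermediateField.adjoin_simple_le_iff]
      rintro ⟨τ, hτ⟩
      obtain ⟨k, rfl⟩ := Subgroup.mem_zpowers_iff.mp hτ
      exact key k
    exact this hx ⟨σ, Subgroup.mem_zpowers σ⟩

theorem GK_isOpen : IsOpen ((GK p : Subgroup GQ) : Set GQ) := by
  rw [← fixingSubgroup_Kz]
  exact IntermediateField.fixingSubgroup_isOpen (Kz p)

theorem fixedField_GK : IntermediateField.fixedField (GK p) = Kz p := by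
  rw [← fixingSubgroup_Kz, InfiniteGalois.fixedField_fixingSubgroup]

/-! ### The finite level cut out by an open normal subgroup `H ≤ G_K` -/

section Level

variable {p}
variable (H : Subgroup GQ)

/-- The field cut out by `H`. -/
noncomputable def Lf : IntermediateField ℚ Qbar := IntermediateField.fixedField H

theorem isClosed_of_isOpen (hHo : IsOpen (H : Set GQ)) : IsClosed (H : Set GQ) :=
  Subgroup.isClosed_of_isOpen H hHo

theorem fixingSubgroup_Lf (hHo : IsOpen (H : Set GQ)) : (Lf H).fixingSubgroup = H :=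
  InfiniteGalois.fixingSubgroup_fixedField ⟨H, isClosed_of_isOpen H hHo⟩

theorem finiteDimensional_Lf (hHo : IsOpen (H : Set GQ)) : FiniteDimensional ℚ (Lf H) := by
  rw [← InfiniteGalois.isOpen_iff_finite, fixingSubgroup_Lf H hHo]
  exact hHo

instance isGalois_Lf [H.Normal] : IsGalois ℚ (Lf H) := IsGalois.of_fixedField_normal_subgroup H

theorem Kz_le_Lf (hHK : H ≤ GK p) : Kz p ≤ Lf H := by
  rw [← fixedField_GK]
  exact IntermediateField.fixedField_antitone hHK

section Res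

variable [H.Normal]

/-- Restriction `G_ℚ → Gal(L/ℚ)`. -/
noncomputable def res : GQ →* (Lf H ≃ₐ[ℚ] Lf H) := AlgEquiv.restrictNormalHom (Lf H)

theorem res_apply (σ : GQ) (x : Lf H) : ((res H σ x : Lf H) : Qbar) = σ (x : Qbar) :=
  AlgEquiv.restrictNormal_commutes σ (Lf H) x

theorem res_surjective : Function.Surjective (res H) :=
  AlgEquiv.restrictNormalHom_surjective Qbar

theorem res_ker (hHo : IsOpen (H : Set GQ)) : (res H).ker = H := by
  ext σ
  have hfix : σ ∈ H ↔ ∀ x ∈ Lf H, σ x = x := by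
    conv_lhs => rw [← fixingSubgroup_Lf H hHo]
    exact IntermediateField.mem_fixingSubgroup_iff _ _
  rw [MonoidHom.mem_ker, hfix]
  constructor
  · intro h x hx
    have h1 := res_apply H σ ⟨x, hx⟩
    rw [h] at h1
    exact h1.symm
  · intro h
    ext x
    rw [res_apply]
    exact h x x.2

theorem res_eq_one_iff (hHo : IsOpen (H : Set GQ)) {σ : GQ} : res H σ = 1 ↔ σ ∈ H := by
  rw [← MonoidHom.mem_ker, res_ker H hHo]

theorem res_eq_res_iff (hHo : IsOpen (H : Set GQ)) {σ τ : GQ} :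
    res H σ = res H τ ↔ σ * τ⁻¹ ∈ H := by
  rw [← res_eq_one_iff H hHo, map_mul, map_inv, mul_inv_eq_one]

end Res

/-- `ζ_p` as an element of `L`. -/
noncomputable def zetaL (hHK : H ≤ GK p) : Lf H := ⟨zeta p, Kz_le_Lf H hHK (zeta_mem_Kz p)⟩

theorem zetaL_spec (hHK : H ≤ GK p) : IsPrimitiveRoot (zetaL H hHK) p := by
  have h := zeta_spec p
  have hinj : Function.Injective (algebraMap (Lf H) Qbar) := (algebraMap (Lf H) Qbar).injective
  exact IsPrimitiveRoot.of_map_of_injective (f := algebraMap (Lf H) Qbar) h hinj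

section Res2

variable [H.Normal]

theorem res_apply_zetaL (hHK : H ≤ GK p) (σ : GQ) :
    res H σ (zetaL H hHK) = zetaL H hHK ^ cycloExp p σ := by
  apply Subtype.ext
  rw [res_apply, SubmonoidClass.coe_pow]
  exact apply_zeta p σ

theorem res_apply_zetaL_eq_iff (hHK : H ≤ GK p) (σ : GQ) :
    res H σ (zetaL H hHK) = zetaL H hHK ↔ σ ∈ GK p := by
  rw [mem_GK_iff_apply_zeta, Subtype.ext_iff, res_apply]
  rfl

end Res2

/-! ### Counting: `[L : ℚ] = p (p - 1)` -/

variable (p) in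
theorem index_GK : (GK p).index = p - 1 := by
  rw [GK, Subgroup.index_ker]
  have hsurj : (chiHom p).range = ⊤ := by
    rw [MonoidHom.range_eq_top]
    intro a
    obtain ⟨σ, hσ⟩ := exists_cycloExp_eq p a
    refine ⟨σ, Units.ext ?_⟩
    have h := cycloExp_cast p σ
    rw [hσ] at h
    exact h.symm
  rw [hsurj, Nat.card_congr (Subgroup.topEquiv (G := (ZMod p)ˣ)).toEquiv, Nat.card_eq_fintype_card,
    ZMod.card_units_eq_totient, Nat.totient_prime Fact.out]

variable (b : GQ → ZMod p)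

/-- The hypotheses on the cocycle `b` restricted to `G_K` (supplied by `Cocycle.lean`). -/
structure IsKummerData : Prop where
  le_GK : H ≤ GK p
  isOpen : IsOpen (H : Set GQ)
  map_mul : ∀ σ ∈ GK p, ∀ τ ∈ GK p, b (σ * τ) = b σ + b τ
  ker : ∀ σ ∈ GK p, (σ ∈ H ↔ b σ = 0)
  surj : ∀ t : ZMod p, ∃ σ ∈ GK p, b σ = t
  conj : ∀ (δ σ : GQ), σ ∈ GK p → b (δ * σ * δ⁻¹) = (chi p δ)⁻¹ * b σ

variable {H b}

/-- `b` restricted to `G_K`, as a homomorphism to `Multiplicative (ZMod p)`. -/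
noncomputable def bHom (hb : IsKummerData H b) : GK p →* Multiplicative (ZMod p) where
  toFun σ := Multiplicative.ofAdd (b σ)
  map_one' := by
    have h := hb.map_mul 1 (one_mem _) 1 (one_mem _)
    rw [mul_one] at h
    have h0 : b 1 = 0 := by
      have : b 1 + 0 = b 1 + b 1 := by rw [add_zero]; exact h
      exact (add_left_cancel this).symm
    change Multiplicative.ofAdd (b ((1 : GK p) : GQ)) = 1
    rw [Subgroup.coe_one, h0]; rfl
  map_mul' σ τ := by
    change Multiplicative.ofAdd (b ((σ * τ : GK p) : GQ)) = _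
    rw [Subgroup.coe_mul, hb.map_mul σ σ.2 τ τ.2]; rfl

theorem bHom_apply (hb : IsKummerData H b) (σ : GK p) :
    Multiplicative.toAdd (bHom hb σ) = b σ := rfl

theorem bHom_surjective (hb : IsKummerData H b) : Function.Surjective (bHom hb) := by
  intro a
  obtain ⟨σ, hσ, hσa⟩ := hb.surj (Multiplicative.toAdd a)
  refine ⟨⟨σ, hσ⟩, ?_⟩
  apply Multiplicative.toAdd.injective
  rw [bHom_apply]
  exact hσa

theorem bHom_ker (hb : IsKummerData H b) : (bHom hb).ker = H.subgroupOf (GK p) := by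
  ext σ
  rw [MonoidHom.mem_ker, Subgroup.mem_subgroupOf, hb.ker σ σ.2]
  constructor
  · intro h
    have := congrArg Multiplicative.toAdd h
    rwa [bHom_apply] at this
  · intro h
    apply Multiplicative.toAdd.injective
    rw [bHom_apply, h]; rfl

theorem relIndex_H (hb : IsKummerData H b) : H.relIndex (GK p) = p := by
  rw [Subgroup.relIndex, ← bHom_ker hb, Subgroup.index_ker,
    MonoidHom.range_eq_top.mpr (bHom_surjective hb),
    Nat.card_congr (Subgroup.topEquiv (G := Multiplicative (ZMod p))).toEquiv]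
  change Nat.card (ZMod p) = p
  rw [Nat.card_eq_fintype_card, ZMod.card]

theorem index_H (hb : IsKummerData H b) : H.index = p * (p - 1) := by
  rw [← Subgroup.relIndex_mul_index hb.le_GK, relIndex_H hb, index_GK p]

section Final

variable [H.Normal]

theorem card_gal (hb : IsKummerData H b) : Nat.card (Lf H ≃ₐ[ℚ] Lf H) = p * (p - 1) := by
  rw [← index_H hb, Subgroup.index, ← Nat.card_congr
    (QuotientGroup.quotientKerEquivOfSurjective (res H) (res_surjective H)).toEquiv,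
    res_ker H hb.isOpen]

theorem finrank_Lf (hb : IsKummerData H b) : Module.finrank ℚ (Lf H) = p * (p - 1) := by
  have := finiteDimensional_Lf H hb.isOpen
  rw [← card_gal hb, IsGalois.card_aut_eq_finrank]

omit [H.Normal] in
theorem b_pow (hb : IsKummerData H b) {σ : GQ} (hσ : σ ∈ GK p) (k : ℕ) :
    b (σ ^ k) = k * b σ := by
  have h := map_pow (bHom hb) ⟨σ, hσ⟩ k
  have h2 := congrArg Multiplicative.toAdd h
  rw [bHom_apply, toAdd_pow, bHom_apply, nsmul_eq_mul] at h2
  exact h2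

omit [H.Normal] in
theorem b_inv (hb : IsKummerData H b) {σ : GQ} (hσ : σ ∈ GK p) :
    b σ⁻¹ = - b σ := by
  have h := map_inv (bHom hb) ⟨σ, hσ⟩
  have h2 := congrArg Multiplicative.toAdd h
  rw [bHom_apply, toAdd_inv, bHom_apply] at h2
  exact h2

/-- **Conjugation formula at finite level**: `Gal(L/ℚ)` acts on `Gal(L/ℚ(ζ_p))` through the
inverse of the cyclotomic character. -/
theorem conj_eq_pow (hb : IsKummerData H b) (δ τ : Lf H ≃ₐ[ℚ] Lf H)
    (hτ : τ (zetaL H hb.le_GK) = zetaL H hb.le_GK) (k m : ℕ)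
    (hm : δ (zetaL H hb.le_GK) = zetaL H hb.le_GK ^ m) (hkm : ((k : ZMod p)) * (m : ZMod p) = 1) :
    δ * τ * δ⁻¹ = τ ^ k := by
  obtain ⟨δ', rfl⟩ := res_surjective H δ
  obtain ⟨σ, rfl⟩ := res_surjective H τ
  have hσ : σ ∈ GK p := (res_apply_zetaL_eq_iff H hb.le_GK σ).mp hτ
  -- `m` is the cyclotomic exponent of `δ'`
  have hm' : ((m : ℕ) : ZMod p) = ((cycloExp p δ' : ℕ) : ZMod p) := by
    rw [res_apply_zetaL] at hm
    have h1 := congrArg (fun x : Lf H => (x : Qbar)) hm
    simp only [SubmonoidClass.coe_pow] at h1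
    exact ((zeta_pow_eq_pow_iff p).mp h1).symm
  have hk : ((k : ℕ) : ZMod p) = (((cycloExp p δ' : ℕ) : ZMod p))⁻¹ := by
    rw [← hm']
    exact eq_inv_of_mul_eq_one_left hkm
  rw [← map_inv, ← map_mul, ← map_mul, ← map_pow, res_eq_res_iff H hb.isOpen]
  have hconj : δ' * σ * δ'⁻¹ ∈ GK p := (inferInstance : (GK p).Normal).conj_mem σ hσ δ'
  have hpow : σ ^ k ∈ GK p := Subgroup.pow_mem _ hσ k
  have hinv : (σ ^ k)⁻¹ ∈ GK p := Subgroup.inv_mem _ hpow
  rw [hb.ker _ (Subgroup.mul_mem _ hconj hinv), hb.map_mul _ hconj _ hinv, b_inv hb hpow,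
    b_pow hb hσ, hb.conj δ' σ hσ, hk, cycloExp_cast]
  ring

end Final

/-! ### `ℚ(ζ_p)` inside `L` and the degree `[L : ℚ(ζ_p)] = p` -/

section KL

variable (H) in
/-- `ℚ(ζ_p)` as an intermediate field of `L/ℚ`. -/
noncomputable def KL (hHK : H ≤ GK p) : IntermediateField ℚ (Lf H) :=
  IntermediateField.adjoin ℚ {zetaL H hHK}

theorem zetaL_mem_KL (hHK : H ≤ GK p) : zetaL H hHK ∈ KL H hHK :=
  IntermediateField.mem_adjoin_simple_self ℚ _

/-- `ζ_p` as an element of `ℚ(ζ_p) ⊆ L`. -/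
noncomputable def zetaK (hHK : H ≤ GK p) : KL H hHK := ⟨zetaL H hHK, zetaL_mem_KL hHK⟩

theorem zetaK_spec (hHK : H ≤ GK p) : IsPrimitiveRoot (zetaK hHK) p := by
  have h := zetaL_spec H hHK
  have hinj : Function.Injective (algebraMap (KL H hHK) (Lf H)) :=
    (algebraMap (KL H hHK) (Lf H)).injective
  exact IsPrimitiveRoot.of_map_of_injective (f := algebraMap (KL H hHK) (Lf H)) h hinj

instance isCyclotomicExtension_KL (hHK : H ≤ GK p) : IsCyclotomicExtension {p} ℚ (KL H hHK) :=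
  (zetaL_spec H hHK).intermediateField_adjoin_isCyclotomicExtension ℚ

theorem finrank_KL (hHK : H ≤ GK p) : Module.finrank ℚ (KL H hHK) = p - 1 := by
  rw [IsCyclotomicExtension.finrank (n := p) (KL H hHK)
    (Polynomial.cyclotomic.irreducible_rat (Fact.out : p.Prime).pos),
    Nat.totient_prime Fact.out]

theorem finrank_KL_Lf [H.Normal] (hb : IsKummerData H b) :
    Module.finrank (KL H hb.le_GK) (Lf H) = p := by
  have h1 := Module.finrank_mul_finrank ℚ (KL H hb.le_GK) (Lf H)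
  rw [finrank_KL, finrank_Lf hb] at h1
  have hp : 0 < p - 1 := by
    have := (Fact.out : p.Prime).two_le
    omega
  rw [mul_comm] at h1
  exact Nat.eq_of_mul_eq_mul_right hp h1

instance isGalois_KL_Lf [H.Normal] (hHK : H ≤ GK p) : IsGalois (KL H hHK) (Lf H) :=
  IsGalois.tower_top_of_isGalois ℚ (KL H hHK) (Lf H)

theorem finiteDimensional_KL_Lf (hHo : IsOpen (H : Set GQ)) (hHK : H ≤ GK p) :
    FiniteDimensional (KL H hHK) (Lf H) := by
  have := finiteDimensional_Lf H hHo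
  exact FiniteDimensional.right ℚ (KL H hHK) (Lf H)

theorem card_gal_KL [H.Normal] (hb : IsKummerData H b) :
    Nat.card (Lf H ≃ₐ[KL H hb.le_GK] Lf H) = p := by
  have := finiteDimensional_KL_Lf hb.isOpen hb.le_GK
  rw [IsGalois.card_aut_eq_finrank, finrank_KL_Lf hb]

theorem isCyclic_gal_KL [H.Normal] (hb : IsKummerData H b) :
    IsCyclic (Lf H ≃ₐ[KL H hb.le_GK] Lf H) :=
  isCyclic_of_prime_card (p := p) (card_gal_KL hb)

/-- An automorphism of `L/ℚ` fixing `ζ_p` fixes `ℚ(ζ_p)` pointwise. -/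
theorem apply_eq_of_mem_KL (hHK : H ≤ GK p) (τ : Lf H ≃ₐ[ℚ] Lf H)
    (hτ : τ (zetaL H hHK) = zetaL H hHK) {x : Lf H} (hx : x ∈ KL H hHK) : τ x = x := by
  have hinv : τ⁻¹ (zetaL H hHK) = zetaL H hHK := by
    conv_lhs => rw [← hτ]
    exact τ.symm_apply_apply _
  have key : ∀ k : ℤ, (τ ^ k) (zetaL H hHK) = zetaL H hHK := by
    intro k
    induction k using Int.induction_on with
    | zero => simp
    | succ n ih => rw [zpow_add_one, AlgEquiv.mul_apply, hτ, ih]
    | pred n ih => rw [zpow_sub_one, AlgEquiv.mul_apply, hinv, ih]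
  have : KL H hHK ≤ IntermediateField.fixedField (Subgroup.zpowers τ) := by
    rw [KL, IntermediateField.adjoin_simple_le_iff]
    rintro ⟨ρ, hρ⟩
    obtain ⟨k, rfl⟩ := Subgroup.mem_zpowers_iff.mp hρ
    exact key k
  exact this hx ⟨τ, Subgroup.mem_zpowers τ⟩

/-- Conjugation formula for `τ ∈ Gal(L/ℚ(ζ_p))`, `δ ∈ Gal(L/ℚ)`. -/
theorem conj_restrictScalars_eq_pow [H.Normal] (hb : IsKummerData H b) (δ : Lf H ≃ₐ[ℚ] Lf H)
    (τ : Lf H ≃ₐ[KL H hb.le_GK] Lf H) (k m : ℕ)
    (hm : δ (zetaL H hb.le_GK) = zetaL H hb.le_GK ^ m) (hkm : ((k : ZMod p)) * (m : ZMod p) = 1) :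
    δ * τ.restrictScalars ℚ * δ⁻¹ = (τ ^ k).restrictScalars ℚ := by
  have hτ : (τ.restrictScalars ℚ) (zetaL H hb.le_GK) = zetaL H hb.le_GK :=
    τ.commutes (zetaK hb.le_GK)
  rw [conj_eq_pow hb δ (τ.restrictScalars ℚ) hτ k m hm hkm]
  ext x
  have : ∀ n : ℕ, ((τ.restrictScalars ℚ) ^ n) x = (τ ^ n) x := by
    intro n
    induction n generalizing x with
    | zero => simp
    | succ n ih => rw [pow_succ, pow_succ, AlgEquiv.mul_apply, AlgEquiv.mul_apply, ih]; rfl
  rw [this k]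
  rfl

/-- An automorphism of `L/ℚ` fixing `ζ_p` fixes every element of `L` lying in `Kz p ⊆ Qbar`. -/
theorem apply_eq_of_coe_mem_Kz [H.Normal] (hHK : H ≤ GK p) (τ : Lf H ≃ₐ[ℚ] Lf H)
    (hτ : τ (zetaL H hHK) = zetaL H hHK) {x : Lf H} (hx : (x : Qbar) ∈ Kz p) : τ x = x := by
  obtain ⟨σ, rfl⟩ := res_surjective H τ
  have hσ : σ ∈ GK p := (res_apply_zetaL_eq_iff H hHK σ).mp hτ
  rw [← fixingSubgroup_Kz] at hσ
  apply Subtype.ext
  rw [res_apply]
  exact (IntermediateField.mem_fixingSubgroup_iff (Kz p) σ).mp hσ x hx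

/-- The conjugation formula in the shape of `Interface.NoOmegaInvExt`. -/
theorem conj_pow_eq_self [H.Normal] (hb : IsKummerData H b) (δ : Lf H ≃ₐ[ℚ] Lf H)
    (σ : Lf H ≃ₐ[KL H hb.le_GK] Lf H) (k : ℕ)
    (hk : ∀ ζ : Lf H, ζ ^ p = 1 → δ ζ = ζ ^ k) :
    (δ * σ.restrictScalars ℚ * δ⁻¹) ^ k = σ.restrictScalars ℚ := by
  have hζ := zetaL_spec H hb.le_GK
  have hδ : δ (zetaL H hb.le_GK) = zetaL H hb.le_GK ^ k := hk _ hζ.pow_eq_one
  -- `k` is prime to `p`
  have hk0 : ((k : ℕ) : ZMod p) ≠ 0 := by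
    intro h0
    have hdvd : p ∣ k := (ZMod.natCast_eq_zero_iff k p).mp h0
    have h1 : zetaL H hb.le_GK ^ k = 1 := (hζ.pow_eq_one_iff_dvd k).mpr hdvd
    rw [h1] at hδ
    have h2 : zetaL H hb.le_GK = 1 := by
      have := congrArg δ.symm hδ
      rwa [AlgEquiv.symm_apply_apply, map_one] at this
    exact hζ.ne_one (Fact.out : p.Prime).one_lt h2
  set k' : ℕ := ((k : ZMod p)⁻¹).val with hk'
  have hkk' : ((k' : ℕ) : ZMod p) * ((k : ℕ) : ZMod p) = 1 := by
    rw [hk', ZMod.natCast_zmod_val, inv_mul_cancel₀ hk0]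
  rw [conj_restrictScalars_eq_pow hb δ σ k' k hδ hkk']
  -- `σ ^ (k' * k) = σ` since `σ ^ p = 1`
  have hσp : σ ^ p = 1 := by
    have h := card_gal_KL hb
    have h2 : σ ^ Nat.card (Lf H ≃ₐ[KL H hb.le_GK] Lf H) = 1 := pow_card_eq_one'
    rwa [h] at h2
  have hmod : k' * k ≡ 1 [MOD p] := by
    rw [← ZMod.natCast_eq_natCast_iff]
    push_cast
    exact hkk'
  have hpow : σ ^ (k' * k) = σ := by
    have h1 : σ ^ (k' * k) = σ ^ 1 := by
      have hord : orderOf σ ∣ p := orderOf_dvd_of_pow_eq_one hσp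
      rw [pow_eq_pow_iff_modEq]
      exact hmod.of_dvd hord
    rwa [pow_one] at h1
  ext x
  have hres : ∀ (ρ : Lf H ≃ₐ[KL H hb.le_GK] Lf H) (n : ℕ) (y : Lf H),
      ((ρ.restrictScalars ℚ) ^ n) y = (ρ ^ n) y := by
    intro ρ n
    induction n with
    | zero => intro y; simp
    | succ n ih =>
      intro y
      rw [pow_succ, pow_succ, AlgEquiv.mul_apply, AlgEquiv.mul_apply, ih]; rfl
  rw [hres, ← pow_mul, hpow]
  rfl

end KL

/-! ### The package for an admissible extension -/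

section Package

variable {V : Type} [AddCommGroup V] [Module (ZMod p) V]
  [DistribMulAction GQ V] [SMulCommClass GQ (ZMod p) V] {C : Submodule (ZMod p) V}

/-- If an admissible extension does not split globally (`p ≥ 3`), its kernel `H = kerV V` carries
Kummer data: all the results of this file apply to `Lf (kerV V)`. -/
theorem exists_isKummerData (hadm : IsAdmissibleExtensionCts p V C) (h3 : 3 ≤ p)
    (hns : ¬ SplitsGlobally C) : ∃ b : GQ → ZMod p, IsKummerData (kerV V) b := by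
  obtain ⟨b, hadd, hker, hsurj, hconj⟩ :=
    ExtCocycle.exists_cocycle_of_not_splits hadm.toIsAdmissibleExtension (exists_chi_ne_one p h3) hns
  exact ⟨b, ExtCocycle.kerV_le_GK hadm.toIsAdmissibleExtension, ExtCocycle.isOpen_kerV hadm,
    hadd, hker, hsurj, hconj⟩

end Package

end Level

end Fermat.Agent.S14.Fields
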