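/-
Program E (S14), piece (T3) (helper8): finite-level consequences of conditions on the inertia /
decomposition groups of valuation subrings of `Qbar = AlgebraicClosure ℚ`.

For a finite Galois `L/ℚ` inside `Qbar`:

* `exists_primeBelow_eq`     : every nonzero prime `P` of `𝓞 L` is `m_A ∩ 𝓞 L` for a valuation
                                subring `A` of `Qbar`;
* `inertia_eq_bot`           : if for every `A` over `ℓ` the inertia group `I_A` fixes `L`, then the
                                inertia group in `Gal(L/ℚ)` of every prime of `𝓞 L` over `ℓ` is trivial;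
* `exists_decomposition_lift`: every element of the decomposition group of `m_A ∩ 𝓞 L` in
                                `Gal(L/ℚ)` lifts to the decomposition group `D_A`;
* `eq_one_of_stabilizer`     : if for every `A` over `ℓ`, `D_A ∩ Gal(Qbar/K)` fixes `L`, then an
                                element of `Gal(L/ℚ)` fixing `K` and stabilising a prime over `ℓ`
                                is trivial.
-/
import Mathlib
import Fermat.Agent.S13.UnramBridge

set_option autoImplicit false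
set_option linter.style.haveILetI false

namespace Fermat.Agent.S14.UnramLevel

open NumberField
open Fermat.Agent.S54 Fermat.Agent.S13.UnramVal Fermat.Agent.S13.UnramMain
  Fermat.Agent.S13.UnramRam Fermat.Agent.S13.UnramLift Fermat.Agent.S13.UnramBridge
open scoped Pointwise

attribute [local instance] topOQ

local notation "Qbar" => AlgebraicClosure ℚ

section Exists

variable (L : IntermediateField ℚ Qbar) [FiniteDimensional ℚ L]

/-- Every nonzero prime of `𝓞 L` lies below a valuation subring of `Qbar`. -/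
theorem exists_primeBelow_eq (P : Ideal (𝓞 L)) [P.IsPrime] (hP : P ≠ ⊥) :
    ∃ A : ValuationSubring Qbar, primeBelow L A = P := by
  classical
  let f : 𝓞 L →+* Qbar := algebraMap (𝓞 L) Qbar
  have hfinj : Function.Injective f := by
    have h1 : Function.Injective (algebraMap L Qbar) := (algebraMap L Qbar).injective
    have h2 : Function.Injective (algebraMap (𝓞 L) L) := RingOfIntegers.coe_injective
    have : (f : 𝓞 L → Qbar) = (algebraMap L Qbar) ∘ (algebraMap (𝓞 L) L) := by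
      funext x; exact IsScalarTower.algebraMap_apply (𝓞 L) L Qbar x
    rw [this]; exact h1.comp h2
  let A₀ : Subring Qbar := f.range
  let e : 𝓞 L ≃+* A₀ := RingEquiv.ofBijective f.rangeRestrict
    ⟨fun x y h => hfinj (congrArg (Subtype.val : A₀ → Qbar) h), f.rangeRestrict_surjective⟩
  let I : Ideal A₀ := P.comap (e.symm : A₀ →+* 𝓞 L)
  have hI : I ≠ ⊤ := Ideal.comap_ne_top _ (Ideal.IsPrime.ne_top inferInstance)
  obtain ⟨B, -, hB⟩ := Ideal.image_subset_nonunits_valuationSubring I hI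
  refine ⟨B, ?_⟩
  have hle : P ≤ primeBelow L B := by
    intro x hx
    rw [mem_primeBelow_iff]
    apply hB
    refine ⟨e x, ?_, rfl⟩
    show e.symm (e x) ∈ P
    rw [RingEquiv.symm_apply_apply]; exact hx
  have hmax : P.IsMaximal := Ideal.IsPrime.isMaximal inferInstance hP
  exact (hmax.eq_of_le (Ideal.IsPrime.ne_top inferInstance) hle).symm

end Exists

section Coe

variable (L : IntermediateField ℚ Qbar) [FiniteDimensional ℚ L]

/-- The integer of `𝓞 L` attached to an integral element of `L`. -/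
theorem exists_integer_eq {x : L} (hx : IsIntegral ℤ x) : ∃ x' : 𝓞 L, ((x' : 𝓞 L) : L) = x :=
  ⟨IsIntegralClosure.mk' (𝓞 L) x hx, IsIntegralClosure.algebraMap_mk' (𝓞 L) x hx⟩

omit [FiniteDimensional ℚ L] in
theorem coe_smul_integer (σ : L ≃ₐ[ℚ] L) (x : 𝓞 L) : ((σ • x : 𝓞 L) : L) = σ (x : L) := by
  change algebraMap (𝓞 L) L (σ • x) = σ (algebraMap (𝓞 L) L x)
  rw [algebraMap.smul']; rfl

end Coe

section Inertia

variable (L : IntermediateField ℚ Qbar) [FiniteDimensional ℚ L]

/-- If for every valuation subring `A` over `ℓ` the inertia group `I_A` fixes `L` pointwise, the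
inertia group in `Gal(L/ℚ)` of every prime of `𝓞 L` over `ℓ` is trivial. -/
theorem inertia_eq_bot {ℓ : ℕ} (hℓ : ℓ.Prime)
    (h : ∀ A : ValuationSubring Qbar, A.LiesOverPrime ℓ →
      A.inertiaSubgroupIn ℚ ≤ L.fixingSubgroup)
    (P : Ideal (𝓞 L)) [P.IsPrime] (hℓP : (ℓ : 𝓞 L) ∈ P) :
    P.inertia (L ≃ₐ[ℚ] L) = ⊥ := by
  have hP0 : P ≠ ⊥ := by
    rintro rfl
    have h0 : (ℓ : 𝓞 L) = 0 := hℓP
    exact hℓ.ne_zero (by exact_mod_cast h0)
  obtain ⟨A, hA⟩ := exists_primeBelow_eq L P hP0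
  have hAℓ : A.LiesOverPrime ℓ := by
    have h1 := hℓP
    rw [← hA, mem_primeBelow_iff] at h1
    have h2 : (((ℓ : 𝓞 L) : L) : Qbar) = (ℓ : Qbar) := by simp
    rw [h2] at h1
    exact h1
  rw [Subgroup.eq_bot_iff_forall]
  intro σ hσ
  have hσ' : ∀ x : L, IsIntegral ℤ x → (((σ x : L) : Qbar) - x) ∈ A.nonunits := by
    intro x hx
    obtain ⟨x', hxx⟩ := exists_integer_eq L hx
    have h1 : σ • x' - x' ∈ primeBelow L A := by rw [hA]; exact hσ x'
    rw [mem_primeBelow_iff] at h1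
    have h2 : ((σ • x' - x' : 𝓞 L) : L) = σ x - x := by
      change algebraMap (𝓞 L) L (σ • x' - x') = σ x - x
      rw [map_sub]
      change ((σ • x' : 𝓞 L) : L) - ((x' : 𝓞 L) : L) = σ x - x
      rw [coe_smul_integer, hxx]
    rw [h2] at h1
    simpa using h1
  obtain ⟨σ', hσ'I, hσ'L⟩ := exists_inertia_lift L A hℓ hAℓ σ hσ'
  have hfix := h A hAℓ hσ'I
  ext x
  have h1 := (IntermediateField.mem_fixingSubgroup_iff L σ').mp hfix x x.2
  rw [hσ'L x] at h1
  exact h1

end Inertia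

section Decomposition

variable (K : IntermediateField ℚ Qbar) (A : ValuationSubring Qbar)

/-- A lift of an automorphism `τ` of `K` stabilising `m_A ∩ 𝓞 K` which stabilises the prime of
`OQ` below `A`. -/
theorem exists_lift_stabilizing_of_stab (τ : K ≃ₐ[ℚ] K)
    (hτ : ∀ x : K, IsIntegral ℤ x →
      ((((τ x : K) : Qbar) ∈ A.nonunits) ↔ ((x : Qbar) ∈ A.nonunits))) :
    ∃ σ : Qbar ≃ₐ[ℚ] Qbar, (∀ x : K, σ x = τ x) ∧
      ∀ b : OQ, (σ • b ∈ primeQ A ↔ b ∈ primeQ A) := by
  set σ₀ : Qbar ≃ₐ[ℚ] Qbar := τ.liftNormal Qbar with hσ₀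
  have hσ₀K : ∀ x : K, σ₀ x = τ x := fun x => τ.liftNormal_commutes Qbar x
  have hσ₀K' : ∀ x : K, σ₀⁻¹ (x : Qbar) = τ.symm x := by
    intro x
    have h1 := hσ₀K (τ.symm x)
    rw [AlgEquiv.apply_symm_apply] at h1
    rw [← h1]
    exact σ₀.symm_apply_apply _
  set Q := primeQ A with hQ
  have hunder : (σ₀ • Q).under (OK K) = Q.under (OK K) := by
    ext a
    rw [Ideal.mem_comap, Ideal.mem_comap, Ideal.mem_pointwise_smul_iff_inv_smul_mem,
      mem_primeQ, mem_primeQ]
    have haK : ((a : OQ) : Qbar) ∈ K := a.2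
    have haint : IsIntegral ℤ ((a : OQ) : Qbar) := (a : OQ).2
    set y : K := τ.symm ⟨_, haK⟩ with hy
    have hyint : IsIntegral ℤ y := by
      have h0 : IsIntegral ℤ (⟨_, haK⟩ : K) :=
        (isIntegral_algebraMap_iff (algebraMap K Qbar).injective).mp haint
      exact map_isIntegral_int τ.symm h0
    have h1 := hτ y hyint
    rw [hy, AlgEquiv.apply_symm_apply] at h1
    have h2 : ((σ₀⁻¹ • (algebraMap (OK K) OQ a) : OQ) : Qbar) = (y : Qbar) := by
      rw [hy, ← hσ₀K']; rfl
    rw [h2]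
    exact h1.symm
  obtain ⟨g, hg⟩ := Algebra.IsInvariant.exists_smul_of_under_eq_of_profinite
    (A := OK K) (B := OQ) (G := Qbar ≃ₐ[K] Qbar) (σ₀ • Q) Q hunder
  refine ⟨(g.restrictScalars ℚ) * σ₀, fun x => ?_, fun b => ?_⟩
  · rw [AlgEquiv.mul_apply, hσ₀K]
    exact g.commutes (τ x)
  · have h1 : ((g.restrictScalars ℚ * σ₀) • b : OQ) = g • (σ₀ • b) := rfl
    rw [h1]
    conv_lhs => rw [hg]
    rw [Ideal.mem_pointwise_smul_iff_inv_smul_mem, inv_smul_smul,
      Ideal.mem_pointwise_smul_iff_inv_smul_mem, inv_smul_smul]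

variable {A}

/-- An automorphism stabilising the prime of `OQ` below `A` maps `A` into `A`. -/
theorem apply_mem_of_stab {q : ℕ} (hq : q.Prime) (hA : A.LiesOverPrime q)
    (ρ : Qbar ≃ₐ[ℚ] Qbar) (hρ : ∀ b : OQ, (ρ • b ∈ primeQ A ↔ b ∈ primeQ A))
    {a : Qbar} (ha : a ∈ A) : ρ a ∈ A := by
  obtain ⟨y, z, hy, hz, hyu, e⟩ := exists_integral_fraction A hq hA (isAlgebraic_int_qbar a) ha
  have hρy : IsIntegral ℤ (ρ y) := map_isIntegral_int ρ hy
  have hρz : IsIntegral ℤ (ρ z) := map_isIntegral_int ρ hz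
  have hρyA : ρ y ∈ A := mem_of_isIntegral_int A hρy
  have hρzA : ρ z ∈ A := mem_of_isIntegral_int A hρz
  have hρyu : ρ y ∉ A.nonunits := by
    intro hcon
    have h1 := (hρ ⟨y, mem_OQ.mpr hy⟩).mp ((mem_primeQ A _).mpr hcon)
    exact hyu ((mem_primeQ A _).mp h1)
  have hv : A.valuation (ρ y) = 1 := by
    refine le_antisymm ((ValuationSubring.valuation_le_one_iff A _).mpr hρyA) ?_
    rw [ValuationSubring.mem_nonunits_iff, not_lt] at hρyu
    exact hρyu
  have hρy0 : ρ y ≠ 0 := by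
    intro h0; rw [h0, map_zero] at hv; exact zero_ne_one hv
  have e' : ρ a * ρ y = ρ z := by rw [← map_mul, e]
  have e'' : ρ a = ρ z / ρ y := by rw [← e']; field_simp
  rw [← ValuationSubring.valuation_le_one_iff, e'', map_div₀, hv, div_one]
  exact (ValuationSubring.valuation_le_one_iff A _).mpr hρzA

/-- An automorphism stabilising the prime of `OQ` below `A` lies in the decomposition group. -/
theorem mem_decompositionSubgroup_of_stab {q : ℕ} (hq : q.Prime) (hA : A.LiesOverPrime q)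
    (σ : Qbar ≃ₐ[ℚ] Qbar) (hσ : ∀ b : OQ, (σ • b ∈ primeQ A ↔ b ∈ primeQ A)) :
    σ ∈ A.decompositionSubgroup ℚ := by
  have hσ' : ∀ b : OQ, (σ⁻¹ • b ∈ primeQ A ↔ b ∈ primeQ A) := by
    intro b
    rw [← hσ (σ⁻¹ • b), smul_inv_smul]
  rw [ValuationSubring.decompositionSubgroup, MulAction.mem_stabilizer_iff]
  ext x
  rw [ValuationSubring.mem_pointwise_smul_iff_inv_smul_mem]
  constructor
  · intro hx
    have h1 := apply_mem_of_stab hq hA σ hσ hx
    have h2 : σ (σ⁻¹ • x) = x := by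
      change σ (σ⁻¹ x) = x
      exact σ.apply_symm_apply x
    rwa [h2] at h1
  · intro hx
    exact apply_mem_of_stab hq hA σ⁻¹ hσ' hx

end Decomposition

section DecompositionLevel

variable (L : IntermediateField ℚ Qbar) [FiniteDimensional ℚ L]

/-- The decomposition group `D_A` surjects onto the decomposition group of `m_A ∩ 𝓞 L`. -/
theorem exists_decomposition_lift (A : ValuationSubring Qbar) {q : ℕ} (hq : q.Prime)
    (hA : A.LiesOverPrime q) (τ : L ≃ₐ[ℚ] L) (hτ : τ • primeBelow L A = primeBelow L A) :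
    ∃ σ ∈ A.decompositionSubgroup ℚ, ∀ x : L, σ x = τ x := by
  have hτ' : ∀ x : L, IsIntegral ℤ x →
      ((((τ x : L) : Qbar) ∈ A.nonunits) ↔ ((x : Qbar) ∈ A.nonunits)) := by
    intro x hx
    obtain ⟨x', hxx⟩ := exists_integer_eq L hx
    have h1 : τ • x' ∈ τ • primeBelow L A ↔ x' ∈ primeBelow L A :=
      Ideal.smul_mem_pointwise_smul_iff
    rw [hτ, mem_primeBelow_iff, mem_primeBelow_iff, coe_smul_integer, hxx] at h1
    exact h1
  obtain ⟨σ, hσL, hσQ⟩ := exists_lift_stabilizing_of_stab L A τ hτ'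
  exact ⟨σ, mem_decompositionSubgroup_of_stab hq hA σ hσQ, hσL⟩

/-- If for every valuation subring `A` over `ℓ` the group `D_A ∩ Gal(Qbar/K)` fixes `L`
pointwise (`K ≤ L`), then an element of `Gal(L/ℚ)` fixing `K` pointwise and stabilising a prime of
`𝓞 L` over `ℓ` is trivial: the primes of `K` over `ℓ` split completely in `L`. -/
theorem eq_one_of_stabilizer (K : IntermediateField ℚ Qbar) (hKL : K ≤ L) {ℓ : ℕ} (hℓ : ℓ.Prime)
    (h : ∀ A : ValuationSubring Qbar, A.LiesOverPrime ℓ →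
      A.decompositionSubgroup ℚ ⊓ K.fixingSubgroup ≤ L.fixingSubgroup)
    (P : Ideal (𝓞 L)) [P.IsPrime] (hℓP : (ℓ : 𝓞 L) ∈ P) (σ : L ≃ₐ[ℚ] L)
    (hσK : ∀ x : L, (x : Qbar) ∈ K → σ x = x) (hσP : σ • P = P) : σ = 1 := by
  have hP0 : P ≠ ⊥ := by
    rintro rfl
    have h0 : (ℓ : 𝓞 L) = 0 := hℓP
    exact hℓ.ne_zero (by exact_mod_cast h0)
  obtain ⟨A, hA⟩ := exists_primeBelow_eq L P hP0
  have hAℓ : A.LiesOverPrime ℓ := by
    have h1 := hℓP
    rw [← hA, mem_primeBelow_iff] at h1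
    have h2 : (((ℓ : 𝓞 L) : L) : Qbar) = (ℓ : Qbar) := by simp
    rw [h2] at h1
    exact h1
  rw [← hA] at hσP
  obtain ⟨σ', hσ'D, hσ'L⟩ := exists_decomposition_lift L A hℓ hAℓ σ hσP
  have hσ'K : σ' ∈ K.fixingSubgroup := by
    rw [IntermediateField.mem_fixingSubgroup_iff]
    intro x hx
    have h1 := hσ'L ⟨x, hKL hx⟩
    have h2 := hσK ⟨x, hKL hx⟩ hx
    rw [h2] at h1
    exact h1
  have hfix := h A hAℓ ⟨hσ'D, hσ'K⟩
  ext x
  have h1 := (IntermediateField.mem_fixingSubgroup_iff L σ').mp hfix x x.2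
  rw [hσ'L x] at h1
  exact h1

end DecompositionLevel

end Fermat.Agent.S14.UnramLevel
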