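/-
Program E (S14): the hypothesis `ArtinGlue.NSHyp` (not all degree-one primes split completely),
proved from `CFT/NotAllSplit.lean` (helper16).
-/
import Mathlib
import Fermat.Agent.S14.ArtinGlue
import Fermat.Agent.CFT.NotAllSplit

set_option autoImplicit false

namespace Fermat.Agent.S14.NSHypProof

/-- **(NS)**, the end theorem of (E-C1) in the shape consumed by `ArtinGlue.noOmegaInvExt_of`. -/
theorem nsHyp : Fermat.Agent.S14.ArtinGlue.NSHyp :=
  fun K L _ _ _ _ _ _ hn m hm => Fermat.Agent.CFT.NotAllSplit.exists_frob_ne_one K L hn m hm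

end Fermat.Agent.S14.NSHypProof
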