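/-
Program E (S14), adapter (helper15): the Stickelberger consumer `stick_kills` (helper5,
`Stick/IdealArith.lean`) together with the Jacobi data (helper1, `Stick/JacobiCore.lean`) gives the
hypothesis `ArtinGlue.STICKHyp p` of the glue theorem `ArtinGlue.noOmegaInvExt_of`, for odd `p`.
-/
import Mathlib
import Fermat.Agent.S14.ArtinGlue
import Fermat.Agent.Stick.IdealArith
import Fermat.Agent.Stick.JacobiCore

set_option autoImplicit false
set_option linter.style.haveILetI false

namespace Fermat.Agent.S14.StickAdapter15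

open NumberField IsCyclotomicExtension.Rat
open scoped Pointwise

section Extend

variable {p : ℕ} {K : Type} [Field K] [NumberField K]

theorem smul_mul' (σ : K ≃ₐ[ℚ] K) (I J : Ideal (𝓞 K)) : σ • (I * J) = σ • I * σ • J := by
  rw [Ideal.pointwise_smul_def, Ideal.pointwise_smul_def, Ideal.pointwise_smul_def, Ideal.map_mul]

theorem smul_top' (σ : K ≃ₐ[ℚ] K) : σ • (⊤ : Ideal (𝓞 K)) = ⊤ := by
  rw [Ideal.pointwise_smul_def]
  exact Ideal.map_top _

/-- A function on ideals which is additive on products of nonzero ideals, vanishes at `⊤`, and is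
`c`-semi-invariant under `σ` at nonzero primes, is `c`-semi-invariant at all nonzero ideals. -/
theorem semiinvariant_of_prime (f : Ideal (𝓞 K) → ZMod p)
    (hmul : ∀ I J : Ideal (𝓞 K), I ≠ ⊥ → J ≠ ⊥ → f (I * J) = f I + f J)
    (htop : f ⊤ = 0) (σ : K ≃ₐ[ℚ] K) (c : ZMod p)
    (hprime : ∀ q : Ideal (𝓞 K), q.IsPrime → q ≠ ⊥ → c * f (σ • q) = f q)
    (I : Ideal (𝓞 K)) (hI : I ≠ ⊥) : c * f (σ • I) = f I := by
  induction I using UniqueFactorizationMonoid.induction_on_prime with
  | h₁ => exact absurd rfl hI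
  | h₂ I hu =>
    rw [Ideal.isUnit_iff] at hu
    subst hu
    rw [smul_top', htop, mul_zero]
  | h₃ I q hI0 hq ih =>
    have hI' : I ≠ ⊥ := hI0
    have hqne : q ≠ ⊥ := hq.ne_zero
    have hqp : q.IsPrime := Ideal.isPrime_of_prime hq
    rw [smul_mul', hmul _ _ (ArtinGlue.smul_ideal_ne_bot σ hqne) (ArtinGlue.smul_ideal_ne_bot σ hI'),
      hmul _ _ hqne hI', mul_add, ih hI', hprime q hqp hqne]

end Extend

/-- **(STICK)** for odd primes `p`: the hypothesis `STICKHyp p` of the glue theorem. -/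
theorem stickHyp {p : ℕ} (hp : p.Prime) (hp2 : p ≠ 2) : ArtinGlue.STICKHyp p := by
  haveI : Fact p.Prime := ⟨hp⟩
  haveI : NeZero p := ⟨hp.ne_zero⟩
  intro K _ _ _ f hmul hprinc hequiv q hq hqN hqp
  have htop : f ⊤ = 0 := by
    have := hprinc 1 one_ne_zero
    rwa [Ideal.span_singleton_one] at this
  have hqne : q ≠ ⊥ := by
    rintro rfl
    rw [Ideal.absNorm_bot] at hqN
    exact Nat.not_prime_zero hqN
  haveI hqmax : q.IsMaximal := hq.isMaximal hqne
  -- equivariance in the shape of `stick_kills`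
  have hequiv' : ∀ (σ : K ≃ₐ[ℚ] K) (I : Ideal (𝓞 K)), I ≠ ⊥ →
      f (σ • I) = (((galEquivZMod p K σ)⁻¹ : (ZMod p)ˣ) : ZMod p) • f I := by
    intro σ I hI
    have hk : ∀ ζ : K, ζ ^ p = 1 → σ ζ = ζ ^ (galEquivZMod p K σ).val.val := fun ζ hζ =>
      galEquivZMod_apply_of_pow_eq p K σ hζ
    have h1 := semiinvariant_of_prime f hmul htop σ (((galEquivZMod p K σ).val.val : ℕ) : ZMod p)
      (fun q' hq' hq'ne => hequiv σ _ hk q' hq' hq'ne) I hI
    rw [ZMod.natCast_zmod_val] at h1
    rw [← h1, smul_eq_mul, ← mul_assoc, ← Units.val_mul, inv_mul_cancel, Units.val_one, one_mul]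
  exact Fermat.Agent.Stick.IdealArith.stick_kills p K hp2 f hmul hprinc hequiv' q
    (Ideal.absNorm q) hqN hqp rfl
    (Fermat.Agent.Stick.JacobiCore.jacobiData p K hp2 q (Ideal.absNorm q) hqN hqp rfl)

end Fermat.Agent.S14.StickAdapter15
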