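/-
Program E (S14), piece (T5) (helper8): the ASSEMBLY of the translation (E-T).

`extVanishingCts_of_noOmegaInvExt (h3 : 3 ≤ p) (H : Interface.NoOmegaInvExt p) :
    ExtCitation.ExtVanishingCts p`

from `ExtCocycle` (helper15: the cocycle `b`, local facts), `Fields` (helper11: `ℚ(ζ_p)`, the fixed
field `L` of the kernel, degrees, restriction) and `UnramLevel` (helper8: finite-level inertia and
decomposition groups).

* `false_of_fields` : the abstract core: a pair `K ≤ L` of subfields of `Qbar` with `K = ℚ(ζ_p)`,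
  `L/ℚ` finite Galois, `[L : K] = p`, satisfying the three `Qbar`-level conditions
  (inertia outside `p` fixes `L`; `D_A ∩ G_K` fixes `L` for `A` over `p`; conjugation through `χ⁻¹`)
  contradicts `NoOmegaInvExt p`.
-/
import Mathlib
import Fermat.Agent.S14.Interface
import Fermat.Agent.S14.UnramLevel
import Fermat.Agent.S14.ExtCocycle
import Fermat.Agent.S14.Fields

set_option autoImplicit false
set_option linter.style.haveILetI false

namespace Fermat.Agent.S14.Translate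

open NumberField
open Fermat.Agent.S13.UnramRam Fermat.Agent.S14.Interface Fermat.Agent.S14.UnramLevel
open scoped Pointwise

local notation "Qbar" => AlgebraicClosure ℚ
local notation "Γℚ" => (AlgebraicClosure ℚ ≃ₐ[ℚ] AlgebraicClosure ℚ)

section Core

variable {p : ℕ} [Fact p.Prime]
variable (K L : IntermediateField ℚ Qbar)

/-- The `K`-algebra structure on `L` given by the inclusion. -/
@[reducible] noncomputable def algebraOfLE (hKL : K ≤ L) : Algebra K L :=
  (IntermediateField.inclusion hKL).toRingHom.toAlgebra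

theorem exists_prime_mem [FiniteDimensional ℚ L] (P : Ideal (𝓞 L)) [P.IsPrime] (hP : P ≠ ⊥) :
    ∃ ℓ : ℕ, ℓ.Prime ∧ (ℓ : 𝓞 L) ∈ P := by
  haveI : Finite (𝓞 L ⧸ P) := Ideal.finiteQuotientOfFreeOfNeBot P hP
  obtain ⟨ℓ, hℓ⟩ := CharP.exists (𝓞 L ⧸ P)
  haveI := hℓ
  have hprime : ℓ.Prime := by
    rcases CharP.char_is_prime_or_zero (𝓞 L ⧸ P) ℓ with h | h
    · exact h
    · exfalso; exact CharP.char_ne_zero_of_finite (𝓞 L ⧸ P) ℓ h
  refine ⟨ℓ, hprime, ?_⟩
  rw [← Ideal.Quotient.eq_zero_iff_mem, map_natCast]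
  exact CharP.cast_eq_zero _ _


theorem false_of_fields (H : NoOmegaInvExt p) (hKL : K ≤ L) [FiniteDimensional ℚ L] [IsGalois ℚ L]
    [IsCyclotomicExtension {p} ℚ K]
    (hdeg : Module.finrank ℚ L = p * Module.finrank ℚ K)
    (hunr : ∀ ℓ : ℕ, ℓ.Prime → ℓ ≠ p → ∀ A : ValuationSubring Qbar, A.LiesOverPrime ℓ →
      A.inertiaSubgroupIn ℚ ≤ L.fixingSubgroup)
    (hsplit : ∀ A : ValuationSubring Qbar, A.LiesOverPrime p →
      A.decompositionSubgroup ℚ ⊓ K.fixingSubgroup ≤ L.fixingSubgroup)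
    (hconj : ∀ (δ σ : Γℚ) (k : ℕ), σ ∈ K.fixingSubgroup →
      (∀ ζ : Qbar, ζ ^ p = 1 → δ ζ = ζ ^ k) → (δ * σ * δ⁻¹) ^ k * σ⁻¹ ∈ L.fixingSubgroup) :
    False := by
  have hp : p.Prime := Fact.out
  letI : Algebra K L := algebraOfLE K L hKL
  haveI : IsScalarTower ℚ K L := IsScalarTower.of_algebraMap_eq (fun x => rfl)
  haveI : FiniteDimensional ℚ K := FiniteDimensional.left ℚ K L
  haveI : IsGalois K L := IsGalois.tower_top_of_isGalois ℚ K L
  have hfixK : ∀ (σ : L ≃ₐ[K] L) (x : L), (x : Qbar) ∈ K → σ x = x := by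
    intro σ x hx
    have hx' : x = algebraMap K L ⟨x, hx⟩ := Subtype.ext rfl
    rw [hx']; exact σ.commutes _
  have hsplit' : ∀ P : Ideal (𝓞 L), P.IsPrime → (p : 𝓞 L) ∈ P →
      MulAction.stabilizer (L ≃ₐ[K] L) P = ⊥ := by
    intro P hPprime hpP
    haveI := hPprime
    rw [Subgroup.eq_bot_iff_forall]
    intro σ hσ
    have hstab : (σ.restrictScalars ℚ) • P = P := MulAction.mem_stabilizer_iff.mp hσ
    have h1 := eq_one_of_stabilizer L K hKL hp hsplit P hpP (σ.restrictScalars ℚ)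
      (fun x hx => hfixK σ x hx) hstab
    refine AlgEquiv.ext fun x => ?_
    exact DFunLike.congr_fun h1 x
  have hunrQ : ∀ P : Ideal (𝓞 L), P.IsPrime → P ≠ ⊥ → (p : 𝓞 L) ∉ P →
      P.inertia (L ≃ₐ[ℚ] L) = ⊥ := by
    intro P hPprime hP0 hpP
    haveI := hPprime
    obtain ⟨ℓ, hℓ, hℓP⟩ := exists_prime_mem L P hP0
    have hℓp : ℓ ≠ p := by rintro rfl; exact hpP hℓP
    exact inertia_eq_bot L hℓ (hunr ℓ hℓ hℓp) P hℓP
  refine H K L ?_ ?_ hsplit' hunrQ ?_
  · have h1 := Module.finrank_mul_finrank ℚ K L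
    rw [hdeg, mul_comm] at h1
    have h0 : 0 < Module.finrank ℚ K := Module.finrank_pos
    exact Nat.eq_of_mul_eq_mul_right h0 h1
  · intro P hPprime hP0
    haveI := hPprime
    by_cases hpP : (p : 𝓞 L) ∈ P
    · rw [eq_bot_iff, ← hsplit' P hPprime hpP]
      exact Ideal.inertia_le_stabilizer P
    · have hbot := hunrQ P hPprime hP0 hpP
      rw [Subgroup.eq_bot_iff_forall]
      intro σ hσ
      have hσ' : σ.restrictScalars ℚ ∈ P.inertia (L ≃ₐ[ℚ] L) := fun x => hσ x
      rw [hbot, Subgroup.mem_bot] at hσ'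
      refine AlgEquiv.ext fun x => ?_
      exact DFunLike.congr_fun hσ' x
  · intro δ σ k hk
    haveI : Normal ℚ Qbar := inferInstance
    set r : Γℚ →* (L ≃ₐ[ℚ] L) := AlgEquiv.restrictNormalHom L with hr
    have hrsurj : Function.Surjective r := AlgEquiv.restrictNormalHom_surjective Qbar
    have hrapp : ∀ (τ : Γℚ) (x : L), ((r τ x : L) : Qbar) = τ x := fun τ x =>
      AlgEquiv.restrictNormal_commutes τ L x
    obtain ⟨δ', hδ'⟩ := hrsurj δ
    obtain ⟨σ', hσ'⟩ := hrsurj (σ.restrictScalars ℚ)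
    -- `σ'` fixes `K`
    have hσ'K : σ' ∈ K.fixingSubgroup := by
      rw [IntermediateField.mem_fixingSubgroup_iff]
      intro x hx
      have h1 := hrapp σ' ⟨x, hKL hx⟩
      rw [hσ'] at h1
      rw [← h1]
      exact congrArg Subtype.val (hfixK σ ⟨x, hKL hx⟩ hx)
    -- the `p`-th roots of unity of `Qbar` lie in `K ≤ L`
    have hζmem : ∀ ζ : Qbar, ζ ^ p = 1 → ζ ∈ K := by
      intro ζ hζ
      haveI : NeZero p := ⟨hp.ne_zero⟩
      obtain ⟨ζ₀, hζ₀⟩ := IsCyclotomicExtension.exists_isPrimitiveRoot ℚ K (Set.mem_singleton p)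
        (NeZero.ne p)
      have hζ₀' : IsPrimitiveRoot ((ζ₀ : K) : Qbar) p :=
        hζ₀.map_of_injective (algebraMap K Qbar).injective
      obtain ⟨i, -, hi⟩ := hζ₀'.eq_pow_of_pow_eq_one hζ
      rw [← hi]
      exact pow_mem ζ₀.2 i
    have hδ'ζ : ∀ ζ : Qbar, ζ ^ p = 1 → δ' ζ = ζ ^ k := by
      intro ζ hζ
      have hζL : ζ ∈ L := hKL (hζmem ζ hζ)
      have h1 := hrapp δ' ⟨ζ, hζL⟩
      rw [hδ'] at h1
      rw [← h1]
      have h2 := hk ⟨ζ, hζL⟩ (Subtype.ext (by simpa using hζ))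
      rw [h2]
      simp
    have hker := hconj δ' σ' k hσ'K hδ'ζ
    have hker' : r ((δ' * σ' * δ'⁻¹) ^ k * σ'⁻¹) = 1 := by
      refine AlgEquiv.ext fun x => Subtype.ext ?_
      rw [hrapp]
      exact (IntermediateField.mem_fixingSubgroup_iff L _).mp hker x x.2
    rw [map_mul, map_pow, map_mul, map_mul, map_inv, map_inv, hδ', hσ'] at hker'
    exact mul_inv_eq_one.mp hker'

end Core

section Final

open ExtCitation Fermat.Agent.S14.ExtCocycle Fermat.Agent.S14.Fields

variable {p : ℕ} [Fact p.Prime]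

/-- **(E-T)** The translation: if there is no unramified `ω⁻¹`-extension of `ℚ(ζ_p)`, every
admissible extension (with open kernel) splits globally. -/
theorem extVanishingCts_of_noOmegaInvExt (h3 : 3 ≤ p) (H : NoOmegaInvExt p) :
    ExtCitation.ExtVanishingCts p := by
  intro V _ _ _ _ C hadm
  by_contra hns
  obtain ⟨b, hb⟩ := Fields.exists_isKummerData hadm h3 hns
  have hadm' := hadm.toIsAdmissibleExtension
  haveI : FiniteDimensional ℚ (Lf (kerV V)) := finiteDimensional_Lf (kerV V) hb.isOpen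
  haveI : IsGalois ℚ (Lf (kerV V)) := Fields.isGalois_Lf (kerV V)
  refine false_of_fields (Kz p) (Lf (kerV V)) H (Kz_le_Lf (kerV V) hb.le_GK) ?_ ?_ ?_ ?_
  · rw [finrank_Lf hb, finrank_Kz]
  · intro ℓ hℓ hℓp A hA
    rw [fixingSubgroup_Lf (kerV V) hb.isOpen]
    exact inertia_le_kerV hadm' hℓ hℓp A hA
  · intro A hA
    rw [fixingSubgroup_Lf (kerV V) hb.isOpen, fixingSubgroup_Kz]
    exact decomposition_inf_GK_le_kerV hadm' A hA
  · intro δ σ k hσ hk
    rw [fixingSubgroup_Kz] at hσ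
    rw [fixingSubgroup_Lf (kerV V) hb.isOpen]
    -- `k` is the cyclotomic exponent of `δ`
    have hkχ : ((k : ℕ) : ZMod p) = chi p δ := by
      have h1 := hk (zeta p) (zeta_spec p).pow_eq_one
      rw [apply_zeta] at h1
      rw [← cycloExp_cast]
      exact ((zeta_pow_eq_pow_iff p).mp h1).symm
    have hconj : δ * σ * δ⁻¹ ∈ GK p := (inferInstance : (GK p).Normal).conj_mem σ hσ δ
    have hpow : (δ * σ * δ⁻¹) ^ k ∈ GK p := Subgroup.pow_mem _ hconj k
    have hinv : σ⁻¹ ∈ GK p := Subgroup.inv_mem _ hσ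
    rw [hb.ker _ (Subgroup.mul_mem _ hpow hinv), hb.map_mul _ hpow _ hinv, b_inv hb hσ,
      b_pow hb hconj, hb.conj δ σ hσ, hkχ, ← mul_assoc, mul_inv_cancel₀ (chi_ne_zero p δ), one_mul,
      add_neg_cancel]

end Final

end Fermat.Agent.S14.Translate
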