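/-
Program E (S14): everything except (ART) plugged in (helper8).

`extVanishingCts_of_art (h3 : 3 ≤ p) (hA : ArtinGlue.ARTHyp p) : ExtCitation.ExtVanishingCts p`
= `Translate` (E-T) + `ArtinGlue` (helper15) + `NSHypProof.nsHyp` (helper16, E-C1) +
`StickAdapter15.stickHyp` (E-S).  The CFT line only has to supply `ARTHyp p`.
-/
import Fermat.Agent.S14.Translate
import Fermat.Agent.S14.ArtinGlue
import Fermat.Agent.S14.StickAdapter15
import Fermat.Agent.S14.NSHypProof

set_option autoImplicit false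

namespace Fermat.Agent.S14.ReduceArt

open Fermat.Agent.S14

theorem noOmegaInvExt_of_art {p : ℕ} [Fact p.Prime] (h3 : 3 ≤ p) (hA : ArtinGlue.ARTHyp p) :
    Interface.NoOmegaInvExt p :=
  ArtinGlue.noOmegaInvExt_of Fact.out hA NSHypProof.nsHyp
    (StickAdapter15.stickHyp Fact.out (by omega))

theorem extVanishingCts_of_art {p : ℕ} [Fact p.Prime] (h3 : 3 ≤ p) (hA : ArtinGlue.ARTHyp p) :
    ExtCitation.ExtVanishingCts p :=
  Translate.extVanishingCts_of_noOmegaInvExt h3 (noOmegaInvExt_of_art h3 hA)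

end Fermat.Agent.S14.ReduceArt
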